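/-
S48 / (N5)-KLEIN (helper21): the odd theta function `ϑ₁₁(z;τ)` and its `z`-derivative at `z = 0`,
built from Mathlib's `jacobiTheta₂`, `jacobiTheta₂'`, with their transformation laws under
`τ ↦ τ + 1`, `τ ↦ -1/τ`, and `z ↦ z + mτ + n`.  Mathlib only.
-/
import Mathlib

set_option autoImplicit false

namespace Fermat.Agent.DS.Klein

open Complex Real

/-! ### `τ ↦ τ + 1` for `jacobiTheta₂` -/

lemma jacobiTheta₂_term_add_one_right (n : ℤ) (z τ : ℂ) :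
    jacobiTheta₂_term n z (τ + 1) = jacobiTheta₂_term n (z + 1 / 2) τ := by
  unfold jacobiTheta₂_term
  obtain ⟨k, hk⟩ : ∃ k : ℤ, n ^ 2 - n = 2 * k := by
    have h : Even (n ^ 2 - n) := by
      have : n ^ 2 - n = n * (n - 1) := by ring
      rw [this]
      exact Int.even_mul_pred_self n
    obtain ⟨k, hk⟩ := h
    exact ⟨k, by rw [hk]; ring⟩
  have hk' : ((n : ℂ) ^ 2 - n) = 2 * k := by
    have := congrArg (Int.cast : ℤ → ℂ) hk
    push_cast at this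
    exact this
  have : (2 * π * I * n * z + π * I * n ^ 2 * (τ + 1) : ℂ) =
      (2 * π * I * n * (z + 1 / 2) + π * I * n ^ 2 * τ) + k * (2 * π * I) := by
    linear_combination (π * I) * hk'
  rw [this, Complex.exp_add, exp_int_mul_two_pi_mul_I, mul_one]

lemma jacobiTheta₂_add_one_right (z τ : ℂ) :
    jacobiTheta₂ z (τ + 1) = jacobiTheta₂ (z + 1 / 2) τ :=
  tsum_congr fun n => jacobiTheta₂_term_add_one_right n z τ

lemma jacobiTheta₂'_add_one_right (z τ : ℂ) :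
    jacobiTheta₂' z (τ + 1) = jacobiTheta₂' (z + 1 / 2) τ := by
  unfold jacobiTheta₂' jacobiTheta₂'_term
  exact tsum_congr fun n => by rw [jacobiTheta₂_term_add_one_right]

/-! ### general lattice shifts in `z` -/

lemma jacobiTheta₂_add_int (z τ : ℂ) (m n : ℤ) :
    jacobiTheta₂ (z + m * τ + n) τ =
      cexp (-π * I * (m ^ 2 * τ + 2 * m * z)) * jacobiTheta₂ z τ := by
  conv_rhs => rw [jacobiTheta₂, ← tsum_mul_left, ← (Equiv.addRight m).tsum_eq]
  refine tsum_congr (fun k ↦ ?_)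
  simp_rw [jacobiTheta₂_term, ← Complex.exp_add, Equiv.coe_addRight, Int.cast_add]
  have : (2 * π * I * k * (z + m * τ + n) + π * I * k ^ 2 * τ : ℂ) =
      (-π * I * (m ^ 2 * τ + 2 * m * z) + (2 * π * I * (k + m) * z + π * I * (k + m) ^ 2 * τ))
        + ((k * n : ℤ) : ℂ) * (2 * π * I) := by
    push_cast
    ring
  rw [this, Complex.exp_add, exp_int_mul_two_pi_mul_I, mul_one]

lemma jacobiTheta₂_sub_left' (y τ : ℂ) :
    jacobiTheta₂ (y - τ) τ = cexp (π * I * (2 * y - τ)) * jacobiTheta₂ y τ := by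
  have := jacobiTheta₂_add_int y τ (-1) 0
  have h1 : y + ((-1 : ℤ) : ℂ) * τ + ((0 : ℤ) : ℂ) = y - τ := by push_cast; ring
  rw [h1] at this
  rw [this]
  congr 2
  push_cast
  ring

lemma jacobiTheta₂'_sub_left' (y τ : ℂ) :
    jacobiTheta₂' (y - τ) τ =
      cexp (π * I * (2 * y - τ)) * (jacobiTheta₂' y τ + 2 * π * I * jacobiTheta₂ y τ) := by
  have h := jacobiTheta₂'_add_left' (y - τ) τ
  rw [sub_add_cancel, jacobiTheta₂_sub_left'] at h
  have hE : cexp (-π * I * (τ + 2 * (y - τ))) * cexp (π * I * (2 * y - τ)) = 1 := by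
    rw [← Complex.exp_add]
    have : -π * I * (τ + 2 * (y - τ)) + π * I * (2 * y - τ) = 0 := by ring
    rw [this, Complex.exp_zero]
  have hne : cexp (-π * I * (τ + 2 * (y - τ))) ≠ 0 := Complex.exp_ne_zero _
  -- θ'(y) = E (θ'(y-τ) - 2πi E' θ(y)),  E E' = 1
  have h2 : jacobiTheta₂' (y - τ) τ =
      cexp (π * I * (2 * y - τ)) * jacobiTheta₂' y τ +
        2 * π * I * (cexp (π * I * (2 * y - τ)) * jacobiTheta₂ y τ) := by
    have h3 : cexp (π * I * (2 * y - τ)) * jacobiTheta₂' y τ =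
        jacobiTheta₂' (y - τ) τ - 2 * π * I * (cexp (π * I * (2 * y - τ)) * jacobiTheta₂ y τ) := by
      rw [h]
      have : cexp (π * I * (2 * y - τ)) * (cexp (-π * I * (τ + 2 * (y - τ))) *
          (jacobiTheta₂' (y - τ) τ - 2 * π * I * (cexp (π * I * (2 * y - τ)) * jacobiTheta₂ y τ)))
          = (cexp (-π * I * (τ + 2 * (y - τ))) * cexp (π * I * (2 * y - τ))) *
          (jacobiTheta₂' (y - τ) τ - 2 * π * I * (cexp (π * I * (2 * y - τ)) * jacobiTheta₂ y τ)) := by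
        ring
      rw [this, hE, one_mul]
    rw [h3]; ring
  rw [h2]; ring

/-- `θ(1/2 + τ/2, τ) = 0` (for every `τ`). -/
lemma jacobiTheta₂_half_add_half (τ : ℂ) : jacobiTheta₂ (1 / 2 + τ / 2) τ = 0 := by
  -- with `x = -1/2 - τ/2`: `θ(-x) = θ(x + τ + 1) = e^{-πi(τ+2x)} θ(x) = -θ(x)` and `θ(-x) = θ(x)`
  set x : ℂ := -1 / 2 - τ / 2 with hx
  have h1 : jacobiTheta₂ (-x) τ = jacobiTheta₂ x τ := jacobiTheta₂_neg_left x τ
  have h2 : (-x) = x + τ + 1 := by rw [hx]; ring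
  have h3 : jacobiTheta₂ (x + τ + 1) τ = -jacobiTheta₂ x τ := by
    rw [jacobiTheta₂_add_left, jacobiTheta₂_add_left']
    have : -π * I * (τ + 2 * x) = π * I := by rw [hx]; ring
    rw [this, Complex.exp_pi_mul_I]; ring
  have h4 : jacobiTheta₂ x τ = 0 := by
    have : jacobiTheta₂ x τ = -jacobiTheta₂ x τ := by rw [← h3, ← h2, h1]
    have h5 : (2 : ℂ) * jacobiTheta₂ x τ = 0 := by linear_combination this
    exact (mul_eq_zero.mp h5).resolve_left two_ne_zero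
  have h6 : (1 / 2 + τ / 2 : ℂ) = -x := by rw [hx]; ring
  rw [h6, h1, h4]

/-! ### the odd theta function -/

/-- `ϑ₁₁(z;τ) = ∑ₙ exp(πi (n+½)² τ + 2πi (n+½)(z+½))`, defined via `jacobiTheta₂`. -/
noncomputable def thetaOdd (z τ : ℂ) : ℂ :=
  cexp (π * I * τ / 4 + π * I * (z + 1 / 2)) * jacobiTheta₂ (z + 1 / 2 + τ / 2) τ

/-- `∂_z ϑ₁₁(z;τ)` at `z = 0`, defined via `jacobiTheta₂'`. -/
noncomputable def thetaOdd' (τ : ℂ) : ℂ :=
  cexp (π * I * τ / 4 + π * I / 2) * jacobiTheta₂' (1 / 2 + τ / 2) τ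

lemma thetaOdd_add_one_right (z τ : ℂ) :
    thetaOdd z (τ + 1) = cexp (π * I / 4) * thetaOdd z τ := by
  unfold thetaOdd
  rw [jacobiTheta₂_add_one_right]
  have : z + 1 / 2 + (τ + 1) / 2 + 1 / 2 = (z + 1 / 2 + τ / 2) + 1 := by ring
  rw [this, jacobiTheta₂_add_left, ← mul_assoc, ← Complex.exp_add]
  congr 2
  ring

lemma thetaOdd'_add_one_right (τ : ℂ) :
    thetaOdd' (τ + 1) = cexp (π * I / 4) * thetaOdd' τ := by
  unfold thetaOdd'
  rw [jacobiTheta₂'_add_one_right]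
  have : 1 / 2 + (τ + 1) / 2 + 1 / 2 = (1 / 2 + τ / 2) + 1 := by ring
  rw [this, jacobiTheta₂'_add_left, ← mul_assoc, ← Complex.exp_add]
  congr 2
  ring

/-- lattice shifts: `ϑ₁₁(z + mτ + n) = (-1)^{n-m} e^{-πi(m²τ + 2mz)} ϑ₁₁(z)`. -/
lemma thetaOdd_add_int (z τ : ℂ) (m n : ℤ) :
    thetaOdd (z + m * τ + n) τ =
      cexp (π * I * (n - m) - π * I * (m ^ 2 * τ + 2 * m * z)) * thetaOdd z τ := by
  unfold thetaOdd
  have : z + m * τ + n + 1 / 2 + τ / 2 = (z + 1 / 2 + τ / 2) + m * τ + n := by ring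
  rw [this, jacobiTheta₂_add_int, ← mul_assoc, ← mul_assoc, ← Complex.exp_add, ← Complex.exp_add]
  congr 2
  ring

lemma thetaOdd_add_one (z τ : ℂ) : thetaOdd (z + 1) τ = -thetaOdd z τ := by
  have := thetaOdd_add_int z τ 0 1
  simp only [Int.cast_zero, zero_mul, add_zero, Int.cast_one, sub_zero, ne_eq,
    OfNat.ofNat_ne_zero, not_false_eq_true, zero_pow, mul_zero] at this
  rw [this, mul_one, Complex.exp_pi_mul_I]; ring

/-- `ϑ₁₁(0;τ) = 0`. -/
lemma thetaOdd_zero (τ : ℂ) : thetaOdd 0 τ = 0 := by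
  unfold thetaOdd
  rw [zero_add, jacobiTheta₂_half_add_half, mul_zero]

/-! ### `τ ↦ -1/τ` -/

/-- `ϑ₁₁(z;τ) = i (-iτ)^{-1/2} e^{-πi z²/τ} ϑ₁₁(z/τ; -1/τ)`. -/
lemma thetaOdd_functional_equation (z : ℂ) {τ : ℂ} (hτ : τ ≠ 0) :
    thetaOdd z τ = I * (1 / (-I * τ) ^ (1 / 2 : ℂ)) * cexp (-π * I * z ^ 2 / τ) *
      thetaOdd (z / τ) (-1 / τ) := by
  unfold thetaOdd
  rw [jacobiTheta₂_functional_equation (z + 1 / 2 + τ / 2) τ]
  have hx : (z + 1 / 2 + τ / 2) / τ = (z / τ + 1 / 2 + (-1 / τ) / 2) - (-1 / τ) := by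
    field_simp
    ring
  rw [hx, jacobiTheta₂_sub_left']
  set J := jacobiTheta₂ (z / τ + 1 / 2 + -1 / τ / 2) (-1 / τ) with hJ
  set C := (1 / (-I * τ) ^ (1 / 2 : ℂ)) with hC
  have hI : cexp (π * I / 2) = I := by
    rw [show (π * I / 2 : ℂ) = (π / 2 : ℝ) * I by push_cast; ring, Complex.exp_mul_I]
    simp
  have key : cexp (π * I * τ / 4 + π * I * (z + 1 / 2)) *
      (cexp (-π * I * (z + 1 / 2 + τ / 2) ^ 2 / τ) *
        cexp (π * I * (2 * (z / τ + 1 / 2 + -1 / τ / 2) - -1 / τ))) =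
      I * (cexp (-π * I * z ^ 2 / τ) *
        cexp (π * I * (-1 / τ) / 4 + π * I * (z / τ + 1 / 2))) := by
    have hexp : π * I * τ / 4 + π * I * (z + 1 / 2) + (-π * I * (z + 1 / 2 + τ / 2) ^ 2 / τ +
        π * I * (2 * (z / τ + 1 / 2 + -1 / τ / 2) - -1 / τ)) =
        π * I / 2 + (-π * I * z ^ 2 / τ + (π * I * (-1 / τ) / 4 + π * I * (z / τ + 1 / 2))) := by
      field_simp
      ring
    calc _ = cexp (π * I / 2 + (-π * I * z ^ 2 / τ +
          (π * I * (-1 / τ) / 4 + π * I * (z / τ + 1 / 2)))) := by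
          rw [← Complex.exp_add, ← Complex.exp_add, hexp]
      _ = _ := by rw [Complex.exp_add, Complex.exp_add, hI]
  calc _ = C * (cexp (π * I * τ / 4 + π * I * (z + 1 / 2)) *
      (cexp (-π * I * (z + 1 / 2 + τ / 2) ^ 2 / τ) *
        cexp (π * I * (2 * (z / τ + 1 / 2 + -1 / τ / 2) - -1 / τ)))) * J := by ring
    _ = _ := by rw [key]; ring

/-- `ϑ₁₁'(0;τ) = i (-iτ)^{-1/2} τ⁻¹ ϑ₁₁'(0; -1/τ)`. -/
lemma thetaOdd'_functional_equation {τ : ℂ} (hτ : τ ≠ 0) :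
    thetaOdd' τ = I * (1 / (-I * τ) ^ (1 / 2 : ℂ)) * (1 / τ) * thetaOdd' (-1 / τ) := by
  unfold thetaOdd'
  rw [jacobiTheta₂'_functional_equation (1 / 2 + τ / 2) τ]
  have hx : (1 / 2 + τ / 2) / τ = (1 / 2 + (-1 / τ) / 2) - (-1 / τ) := by
    field_simp
    ring
  rw [hx, jacobiTheta₂_sub_left', jacobiTheta₂'_sub_left', jacobiTheta₂_half_add_half]
  simp only [mul_zero, add_zero, sub_zero]
  set J := jacobiTheta₂' (1 / 2 + -1 / τ / 2) (-1 / τ) with hJ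
  set C := (1 / (-I * τ) ^ (1 / 2 : ℂ)) with hC
  have hI : cexp (π * I / 2) = I := by
    rw [show (π * I / 2 : ℂ) = (π / 2 : ℝ) * I by push_cast; ring, Complex.exp_mul_I]
    simp
  have key : cexp (π * I * τ / 4 + π * I / 2) *
      (cexp (-π * I * (1 / 2 + τ / 2) ^ 2 / τ) *
        cexp (π * I * (2 * (1 / 2 + -1 / τ / 2) - -1 / τ))) =
      I * cexp (π * I * (-1 / τ) / 4 + π * I / 2) := by
    have hexp : π * I * τ / 4 + π * I / 2 + (-π * I * (1 / 2 + τ / 2) ^ 2 / τ +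
        π * I * (2 * (1 / 2 + -1 / τ / 2) - -1 / τ)) =
        π * I / 2 + (π * I * (-1 / τ) / 4 + π * I / 2) := by
      field_simp
      ring
    calc _ = cexp (π * I / 2 + (π * I * (-1 / τ) / 4 + π * I / 2)) := by
          rw [← Complex.exp_add, ← Complex.exp_add, hexp]
      _ = _ := by rw [Complex.exp_add, hI]
  calc _ = C * (1 / τ) * (cexp (π * I * τ / 4 + π * I / 2) *
      (cexp (-π * I * (1 / 2 + τ / 2) ^ 2 / τ) *
        cexp (π * I * (2 * (1 / 2 + -1 / τ / 2) - -1 / τ)))) * J := by ring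
    _ = _ := by rw [key]; ring

end Fermat.Agent.DS.Klein
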