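/-
S48 / (N5)-KLEIN (helper21): the weight-one "inverse Klein forms"
`G_a(τ) = ϑ₁₁'(0;τ) / (e^{πi a₁ z} ϑ₁₁(z;τ))`, `z = a₁ τ + a₂`, and their transformation law
`G_a ∣[1] γ = G_{aγ}` for all `γ ∈ SL(2,ℤ)`, plus the shift law in `a ↦ a + (m,n)`.  Mathlib only.
-/
import Mathlib
import Fermat.Agent.DS.Klein.ThetaOdd

set_option autoImplicit false

namespace Fermat.Agent.DS.Klein

open Complex Real ModularGroup
open UpperHalfPlane hiding I
open scoped MatrixGroups ModularForm

/-- complex-variable version of the inverse Klein form -/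
noncomputable def kleinInvC (a : ℂ × ℂ) (τ : ℂ) : ℂ :=
  thetaOdd' τ / (cexp (π * I * a.1 * (a.1 * τ + a.2)) * thetaOdd (a.1 * τ + a.2) τ)

/-- the inverse Klein form as a function on the upper half plane -/
noncomputable def kleinInv (a : ℂ × ℂ) (τ : ℍ) : ℂ := kleinInvC a τ

/-- right action of `SL(2,ℤ)` on row vectors -/
def rowAct (a : ℂ × ℂ) (γ : SL(2, ℤ)) : ℂ × ℂ :=
  (a.1 * γ 0 0 + a.2 * γ 1 0, a.1 * γ 0 1 + a.2 * γ 1 1)

@[simp] lemma rowAct_one (a : ℂ × ℂ) : rowAct a 1 = a := by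
  simp [rowAct]

lemma rowAct_mul (a : ℂ × ℂ) (γ δ : SL(2, ℤ)) : rowAct a (γ * δ) = rowAct (rowAct a γ) δ := by
  unfold rowAct
  simp only [Matrix.SpecialLinearGroup.coe_mul, Matrix.mul_apply, Fin.sum_univ_two]
  ext <;> simp <;> ring

lemma kleinInvC_T (a : ℂ × ℂ) (τ : ℂ) :
    kleinInvC a (τ + 1) = kleinInvC (a.1, a.1 + a.2) τ := by
  unfold kleinInvC
  have h : a.1 * (τ + 1) + a.2 = a.1 * τ + (a.1 + a.2) := by ring
  rw [thetaOdd'_add_one_right, h, thetaOdd_add_one_right]
  have hne : cexp (π * I / 4) ≠ 0 := Complex.exp_ne_zero _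
  rw [show cexp (π * I * a.1 * (a.1 * τ + (a.1 + a.2))) *
      (cexp (π * I / 4) * thetaOdd (a.1 * τ + (a.1 + a.2)) τ) =
      cexp (π * I / 4) * (cexp (π * I * a.1 * (a.1 * τ + (a.1 + a.2))) *
        thetaOdd (a.1 * τ + (a.1 + a.2)) τ) by ring]
  exact mul_div_mul_left _ _ hne

lemma kleinInvC_S (a : ℂ × ℂ) {τ : ℂ} (hτ : τ ≠ 0) :
    kleinInvC a (-1 / τ) = τ * kleinInvC (a.2, -a.1) τ := by
  unfold kleinInvC
  simp only
  set z := a.2 * τ + -a.1 with hz
  have hz' : a.1 * (-1 / τ) + a.2 = z / τ := by rw [hz]; field_simp; ring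
  have hC : (1 / (-I * τ) ^ (1 / 2 : ℂ)) ≠ 0 := by
    apply one_div_ne_zero
    intro h0
    rw [Complex.cpow_eq_zero_iff] at h0
    exact (mul_ne_zero (neg_ne_zero.mpr I_ne_zero) hτ) h0.1
  have h1 := thetaOdd'_functional_equation hτ
  have h2 := thetaOdd_functional_equation z hτ
  rw [hz', h1, h2]
  set C := (1 / (-I * τ) ^ (1 / 2 : ℂ)) with hCdef
  have hexp : cexp (π * I * a.1 * (z / τ)) =
      cexp (π * I * a.2 * z) * cexp (-π * I * z ^ 2 / τ) := by
    rw [← Complex.exp_add]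
    congr 1
    rw [hz]
    field_simp
    ring
  rw [hexp]
  set T' := thetaOdd' (-1 / τ)
  set Θ' := thetaOdd (z / τ) (-1 / τ)
  set E1 := cexp (π * I * a.2 * z)
  set E3 := cexp (-π * I * z ^ 2 / τ)
  have hIC : I * C ≠ 0 := mul_ne_zero I_ne_zero hC
  have hden : E1 * (I * C * E3 * Θ') = (I * C) * (E1 * E3 * Θ') := by ring
  have hnum : τ * (I * C * (1 / τ) * T') = (I * C) * T' := by field_simp
  rw [hden, ← mul_div_assoc, hnum, mul_div_mul_left _ _ hIC]

/-- **Transformation law**: `G_a ∣[1] γ = G_{aγ}` for every `γ ∈ SL(2,ℤ)`. -/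
theorem kleinInv_slash (γ : SL(2, ℤ)) :
    ∀ a : ℂ × ℂ, kleinInv a ∣[(1 : ℤ)] γ = kleinInv (rowAct a γ) := by
  have hγ : γ ∈ Subgroup.closure {S, T} := by simp [SpecialLinearGroup.SL2Z_generators]
  induction hγ using Subgroup.closure_induction with
  | one => intro a; simp
  | mem g hg =>
      intro a
      simp only [Set.mem_insert_iff, Set.mem_singleton_iff] at hg
      rcases hg with rfl | rfl
      · ext τ
        rw [SlashInvariantForm.slash_S_apply]
        have hτ : (τ : ℂ) ≠ 0 := ne_zero τ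
        have h1 : kleinInv a (UpperHalfPlane.mk (-(τ : ℂ))⁻¹ τ.im_inv_neg_coe_pos) =
            kleinInvC a (-1 / τ) := by
          unfold kleinInv
          congr 1
          rw [UpperHalfPlane.coe_mk, neg_div, inv_neg, one_div]
        rw [h1, kleinInvC_S a hτ]
        have h2 : rowAct a S = (a.2, -a.1) := by
          simp [rowAct, S]
        rw [h2]
        unfold kleinInv
        rw [zpow_neg, zpow_one]
        field_simp
      · ext τ
        rw [ModularForm.SL_slash_apply, modular_T_smul]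
        have h1 : kleinInv a ((1 : ℝ) +ᵥ τ) = kleinInvC a (τ + 1) := by
          unfold kleinInv
          congr 1
          rw [UpperHalfPlane.coe_vadd]
          push_cast
          ring
        have h2 : rowAct a T = (a.1, a.1 + a.2) := by
          simp [rowAct, T]
        have h3 : denom (T : SL(2, ℤ)) τ = 1 := by
          rw [ModularGroup.denom_apply]
          simp [T]
        rw [h1, kleinInvC_T, h2, h3]
        simp [kleinInv]
  | mul g h _ _ ig ih =>
      intro a
      rw [SlashAction.slash_mul, ig, ih, rowAct_mul]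
  | inv g _ ig =>
      intro a
      have h1 := ig (rowAct a g⁻¹)
      rw [← rowAct_mul, inv_mul_cancel, rowAct_one] at h1
      rw [← h1, ← SlashAction.slash_mul, mul_inv_cancel, SlashAction.slash_one]

/-- pointwise form of the transformation law -/
theorem kleinInv_smul (γ : SL(2, ℤ)) (a : ℂ × ℂ) (τ : ℍ) :
    kleinInv a (γ • τ) = denom γ τ * kleinInv (rowAct a γ) τ := by
  have h := congrFun (kleinInv_slash γ a) τ
  rw [ModularForm.SL_slash_apply, zpow_neg, zpow_one] at h
  have hd : denom γ τ ≠ 0 := denom_ne_zero γ τ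
  rw [← h]
  field_simp

/-- **Shift law**: `G_{a + (m,n)} = e^{-πi(a₁ n - a₂ m + mn + n - m)} G_a` for integers `m n`. -/
theorem kleinInvC_add_int (a : ℂ × ℂ) (m n : ℤ) (τ : ℂ) :
    kleinInvC (a.1 + m, a.2 + n) τ =
      cexp (-(π * I * (a.1 * n - a.2 * m + m * n + n - m))) * kleinInvC a τ := by
  unfold kleinInvC
  simp only
  have h : (a.1 + m) * τ + (a.2 + n) = (a.1 * τ + a.2) + m * τ + n := by ring
  rw [h, thetaOdd_add_int]
  set z := a.1 * τ + a.2 with hz
  have hexp : cexp (π * I * (a.1 + m) * (z + m * τ + n)) *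
      cexp (π * I * (n - m) - π * I * (m ^ 2 * τ + 2 * m * z)) =
      cexp (π * I * (a.1 * n - a.2 * m + m * n + n - m)) * cexp (π * I * a.1 * z) := by
    rw [← Complex.exp_add, ← Complex.exp_add]
    congr 1
    rw [hz]
    ring
  rw [← mul_assoc, hexp, Complex.exp_neg]
  have hne : cexp (π * I * (a.1 * n - a.2 * m + m * n + n - m)) ≠ 0 := Complex.exp_ne_zero _
  rw [mul_assoc, div_mul_eq_div_div_swap, div_eq_inv_mul]

end Fermat.Agent.DS.Klein
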