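/-
S48 / (N5)-KLEIN (helper21): the FINITE form of the Jacobi triple product (Cauchy / Gauss):

  `∏_{k<N} (1 + q^(2k+1) w)(1 + q^(2k+1) w⁻¹) = ∑_{m ∈ ℤ} c_N(m) w^m`,
  `c_N(m) = q^(m²) (q²;q²)_{2N} / ((q²;q²)_{N+|m|} (q²;q²)_{N-|m|})` for `|m| ≤ N`, `0` otherwise.

Pure field algebra (the `∑` over `ℤ` is a `tsum` of a finitely supported function, in `ℂ`).
Mathlib only.
-/
import Mathlib

set_option autoImplicit false

namespace Fermat.Agent.DS.Klein

open Finset

section Field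

variable {K : Type*} [Field K]

/-- The partial `q²`-Pochhammer product `(q²;q²)_k = ∏_{j=1}^{k} (1 - q^(2j))`. -/
def pch (q : K) (k : ℕ) : K := ∏ j ∈ range k, (1 - q ^ (2 * (j + 1)))

@[simp] lemma pch_zero (q : K) : pch q 0 = 1 := by simp [pch]

lemma pch_succ (q : K) (k : ℕ) : pch q (k + 1) = pch q k * (1 - q ^ (2 * (k + 1))) := by
  simp [pch, prod_range_succ]

/-- The coefficient `c_N(a)` for a natural index `a = |m|`. -/
def dcf (q : K) (N a : ℕ) : K :=
  if a ≤ N then q ^ (a ^ 2) * pch q (2 * N) / (pch q (N + a) * pch q (N - a)) else 0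

lemma dcf_of_le (q : K) {N a : ℕ} (h : a ≤ N) :
    dcf q N a = q ^ (a ^ 2) * pch q (2 * N) / (pch q (N + a) * pch q (N - a)) := if_pos h

lemma dcf_of_lt (q : K) {N a : ℕ} (h : N < a) : dcf q N a = 0 := if_neg (not_le.mpr h)

variable {q : K} (hq : ∀ k : ℕ, pch q k ≠ 0)

include hq in
lemma one_sub_ne_zero (k : ℕ) : (1 : K) - q ^ (2 * (k + 1)) ≠ 0 := by
  have h := hq (k + 1)
  rw [pch_succ] at h
  exact right_ne_zero_of_mul h

include hq in
/-- The recurrence in the generic range `1 ≤ a`, `a + 2 ≤ N + 1`. -/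
lemma dcf_rec_generic (a b : ℕ) :
    dcf q (a + 1 + b + 1 + 1) (a + 1) =
      (1 + q ^ (4 * (a + 1 + b + 1) + 2)) * dcf q (a + 1 + b + 1) (a + 1) +
        q ^ (2 * (a + 1 + b + 1) + 1) *
          (dcf q (a + 1 + b + 1) a + dcf q (a + 1 + b + 1) (a + 1 + 1)) := by
  rw [dcf_of_le q (by omega : a + 1 ≤ a + 1 + b + 1 + 1), dcf_of_le q (by omega : a + 1 ≤ a + 1 + b + 1),
    dcf_of_le q (by omega : a ≤ a + 1 + b + 1), dcf_of_le q (by omega : a + 1 + 1 ≤ a + 1 + b + 1)]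
  have e1 : a + 1 + b + 1 + 1 - (a + 1) = b + 1 + 1 := by omega
  have e2 : a + 1 + b + 1 - (a + 1) = b + 1 := by omega
  have e3 : a + 1 + b + 1 - a = b + 1 + 1 := by omega
  have e4 : a + 1 + b + 1 - (a + 1 + 1) = b := by omega
  have f1 : a + 1 + b + 1 + 1 + (a + 1) = (2 * a + b + 1) + 1 + 1 + 1 := by omega
  have f2 : a + 1 + b + 1 + (a + 1) = (2 * a + b + 1) + 1 + 1 := by omega
  have f3 : a + 1 + b + 1 + a = (2 * a + b + 1) + 1 := by omega
  have f4 : a + 1 + b + 1 + (a + 1 + 1) = (2 * a + b + 1) + 1 + 1 + 1 := by omega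
  have g1 : 2 * (a + 1 + b + 1 + 1) = 2 * (a + 1 + b + 1) + 1 + 1 := by omega
  rw [e1, e2, e3, e4, f1, f2, f3, f4, g1]
  simp only [pch_succ]
  have hX := hq (2 * a + b + 1)
  have hY := hq b
  have hZ := hq (2 * (a + 1 + b + 1))
  have h1 := one_sub_ne_zero hq (2 * a + b + 1)
  have h2 := one_sub_ne_zero hq (2 * a + b + 1 + 1)
  have h3 := one_sub_ne_zero hq (2 * a + b + 1 + 1 + 1)
  have h4 := one_sub_ne_zero hq b
  have h5 := one_sub_ne_zero hq (b + 1)
  field_simp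
  ring


include hq in
/-- The recurrence at `a = 0`, `N ≥ 1`. -/
lemma dcf_rec_zero (b : ℕ) :
    dcf q (b + 1 + 1) 0 =
      (1 + q ^ (4 * (b + 1) + 2)) * dcf q (b + 1) 0 +
        q ^ (2 * (b + 1) + 1) * (dcf q (b + 1) 1 + dcf q (b + 1) 1) := by
  rw [dcf_of_le q (by omega : 0 ≤ b + 1 + 1), dcf_of_le q (by omega : 0 ≤ b + 1),
    dcf_of_le q (by omega : 1 ≤ b + 1)]
  have e1 : b + 1 - 1 = b := by omega
  have g1 : 2 * (b + 1 + 1) = 2 * (b + 1) + 1 + 1 := by omega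
  rw [e1, g1]
  simp only [Nat.sub_zero, Nat.add_zero, pch_succ]
  have hX := hq b
  have hZ := hq (2 * (b + 1))
  have h1 := one_sub_ne_zero hq b
  have h2 := one_sub_ne_zero hq (b + 1)
  field_simp
  ring

include hq in
/-- The recurrence at `a = 0`, `N = 0`. -/
lemma dcf_rec_zero_zero :
    dcf q 1 0 = (1 + q ^ 2) * dcf q 0 0 + q ^ 1 * (dcf q 0 1 + dcf q 0 1) := by
  rw [dcf_of_le q (by omega : 0 ≤ 1), dcf_of_le q (by omega : 0 ≤ 0),
    dcf_of_lt q (by omega : 0 < 1)]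
  have h1 : (1 : K) - q ^ 2 ≠ 0 := by simpa using one_sub_ne_zero hq 0
  simp only [pch, Nat.sub_zero, Nat.add_zero, prod_range_succ, prod_range_zero, Nat.mul_zero,
    Nat.zero_add, Nat.mul_one]
  field_simp
  ring

include hq in
/-- The recurrence at `a = N ≥ 1`. -/
lemma dcf_rec_top (a : ℕ) :
    dcf q (a + 1 + 1) (a + 1) =
      (1 + q ^ (4 * (a + 1) + 2)) * dcf q (a + 1) (a + 1) +
        q ^ (2 * (a + 1) + 1) * (dcf q (a + 1) a + dcf q (a + 1) (a + 1 + 1)) := by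
  rw [dcf_of_le q (by omega : a + 1 ≤ a + 1 + 1), dcf_of_le q (by omega : a + 1 ≤ a + 1),
    dcf_of_le q (by omega : a ≤ a + 1), dcf_of_lt q (by omega : a + 1 < a + 1 + 1)]
  have e1 : a + 1 + 1 - (a + 1) = 1 := by omega
  have e2 : a + 1 - (a + 1) = 0 := by omega
  have e3 : a + 1 - a = 1 := by omega
  have f1 : a + 1 + 1 + (a + 1) = (2 * a + 1) + 1 + 1 := by omega
  have f2 : a + 1 + (a + 1) = (2 * a + 1) + 1 := by omega
  have f3 : a + 1 + a = 2 * a + 1 := by omega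
  have g1 : 2 * (a + 1 + 1) = (2 * a + 1) + 1 + 1 + 1 := by omega
  have g2 : 2 * (a + 1) = (2 * a + 1) + 1 := by omega
  rw [e1, e2, e3, f1, f2, f3, g1, g2]
  simp only [pch_succ, pch_zero]
  have hX := hq (2 * a + 1)
  have h1 := one_sub_ne_zero hq (2 * a + 1)
  have h2 := one_sub_ne_zero hq (2 * a + 1 + 1)
  have h3 := one_sub_ne_zero hq (2 * a + 1 + 1 + 1)
  have h4 := one_sub_ne_zero hq 0
  field_simp
  ring

include hq in
/-- The recurrence at `a = N + 1`. -/
lemma dcf_rec_succ (N : ℕ) :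
    dcf q (N + 1) (N + 1) =
      (1 + q ^ (4 * N + 2)) * dcf q N (N + 1) +
        q ^ (2 * N + 1) * (dcf q N N + dcf q N (N + 1 + 1)) := by
  rw [dcf_of_le q (le_refl (N + 1)), dcf_of_le q (le_refl N),
    dcf_of_lt q (by omega : N < N + 1), dcf_of_lt q (by omega : N < N + 1 + 1)]
  have e1 : N + 1 + (N + 1) = 2 * (N + 1) := by omega
  have e2 : N + N = 2 * N := by omega
  rw [e1, e2]
  simp only [Nat.sub_self, pch_zero]
  have hX := hq (2 * (N + 1))
  have hY := hq (2 * N)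
  field_simp
  ring


include hq in
/-- The recurrence for all natural `a ≥ 1`. -/
lemma dcf_rec_nat (N a : ℕ) :
    dcf q (N + 1) (a + 1) =
      (1 + q ^ (4 * N + 2)) * dcf q N (a + 1) +
        q ^ (2 * N + 1) * (dcf q N a + dcf q N (a + 1 + 1)) := by
  rcases lt_trichotomy (a + 1) (N + 1) with h | h | h
  · -- `a + 1 ≤ N`
    rcases Nat.lt_or_ge (a + 1) N with h' | h'
    · obtain ⟨b, rfl⟩ : ∃ b, N = a + 1 + b + 1 := ⟨N - (a + 1) - 1, by omega⟩
      exact dcf_rec_generic hq a b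
    · obtain rfl : N = a + 1 := by omega
      exact dcf_rec_top hq a
  · obtain rfl : a = N := by omega
    exact dcf_rec_succ hq a
  · rw [dcf_of_lt q h, dcf_of_lt q (by omega : N < a + 1), dcf_of_lt q (by omega : N < a),
      dcf_of_lt q (by omega : N < a + 1 + 1)]
    ring

include hq in
/-- The recurrence at `a = 0`, all `N`. -/
lemma dcf_rec_zero_all (N : ℕ) :
    dcf q (N + 1) 0 =
      (1 + q ^ (4 * N + 2)) * dcf q N 0 + q ^ (2 * N + 1) * (dcf q N 1 + dcf q N 1) := by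
  rcases N with _ | b
  · simpa using dcf_rec_zero_zero hq
  · exact dcf_rec_zero hq b

/-- The coefficient `c_N(m)`, `m : ℤ`. -/
def cf (q : K) (N : ℕ) (m : ℤ) : K := dcf q N m.natAbs

lemma cf_eq_zero_of_lt (q : K) {N : ℕ} {m : ℤ} (h : N < m.natAbs) : cf q N m = 0 :=
  dcf_of_lt q h

include hq in
/-- The three-term recurrence for the integer-indexed coefficients. -/
lemma cf_rec (N : ℕ) (m : ℤ) :
    cf q (N + 1) m =
      (1 + q ^ (4 * N + 2)) * cf q N m +
        q ^ (2 * N + 1) * (cf q N (m - 1) + cf q N (m + 1)) := by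
  unfold cf
  rcases lt_trichotomy m 0 with h | h | h
  · obtain ⟨a, rfl⟩ : ∃ a : ℕ, m = -((a : ℤ) + 1) := ⟨(-m - 1).toNat, by omega⟩
    have e1 : (-((a : ℤ) + 1)).natAbs = a + 1 := by omega
    have e2 : (-((a : ℤ) + 1) - 1).natAbs = a + 1 + 1 := by omega
    have e3 : (-((a : ℤ) + 1) + 1).natAbs = a := by omega
    rw [e1, e2, e3, dcf_rec_nat hq N a]
    ring
  · subst h
    have e2 : ((0 : ℤ) - 1).natAbs = 1 := by decide
    have e3 : ((0 : ℤ) + 1).natAbs = 1 := by decide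
    rw [e2, e3]
    exact dcf_rec_zero_all hq N
  · obtain ⟨a, rfl⟩ : ∃ a : ℕ, m = (a : ℤ) + 1 := ⟨(m - 1).toNat, by omega⟩
    have e1 : ((a : ℤ) + 1).natAbs = a + 1 := by omega
    have e2 : ((a : ℤ) + 1 - 1).natAbs = a := by omega
    have e3 : ((a : ℤ) + 1 + 1).natAbs = a + 1 + 1 := by omega
    rw [e1, e2, e3, dcf_rec_nat hq N a]

lemma cf_zero (q : K) (m : ℤ) : cf q 0 m = if m = 0 then 1 else 0 := by
  unfold cf
  split_ifs with h
  · subst h
    simp [dcf]
  · exact dcf_of_lt q (by omega)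

end Field


section Complex

variable {q : ℂ} (hq : ∀ k : ℕ, pch q k ≠ 0) {w : ℂ} (hw : w ≠ 0)

lemma support_cf_mul_finite (q : ℂ) (N : ℕ) (f : ℤ → ℂ) :
    (Function.support fun m : ℤ => cf q N m * f m).Finite := by
  refine (Set.finite_Icc (-(N : ℤ)) N).subset fun m hm => ?_
  by_contra h
  have : N < m.natAbs := by
    simp only [Set.mem_Icc, not_and_or, not_le] at h
    omega
  exact hm (by simp [cf_eq_zero_of_lt q this])

lemma summable_cf_mul (q : ℂ) (N : ℕ) (f : ℤ → ℂ) : Summable fun m : ℤ => cf q N m * f m :=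
  summable_of_hasFiniteSupport (support_cf_mul_finite q N f)

/-- The finite sum `∑_m c_N(m) w^m`. -/
noncomputable def finTheta (q : ℂ) (N : ℕ) (w : ℂ) : ℂ := ∑' m : ℤ, cf q N m * w ^ m

include hq hw in
lemma finTheta_succ (N : ℕ) :
    finTheta q (N + 1) w =
      finTheta q N w * ((1 + q ^ (2 * N + 1) * w) * (1 + q ^ (2 * N + 1) * w⁻¹)) := by
  unfold finTheta
  have h0 : Summable fun m : ℤ => cf q N m * w ^ m := summable_cf_mul q N _
  -- the two shifted sums
  have h1 : (∑' m : ℤ, cf q N m * w ^ m) * w = ∑' m : ℤ, cf q N (m - 1) * w ^ m := by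
    rw [← tsum_mul_right, ← (Equiv.subRight (1 : ℤ)).tsum_eq]
    refine tsum_congr fun m => ?_
    simp only [Equiv.subRight_apply]
    rw [mul_assoc, ← zpow_add_one₀ hw, sub_add_cancel]
  have h2 : (∑' m : ℤ, cf q N m * w ^ m) * w⁻¹ = ∑' m : ℤ, cf q N (m + 1) * w ^ m := by
    rw [← tsum_mul_right, ← (Equiv.addRight (1 : ℤ)).tsum_eq]
    refine tsum_congr fun m => ?_
    simp only [Equiv.coe_addRight]
    rw [mul_assoc, ← zpow_sub_one₀ hw, add_sub_cancel_right]
  have s1 : Summable fun m : ℤ => cf q N (m - 1) * w ^ m := by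
    have := (summable_cf_mul q N fun m => w ^ (m + 1))
    exact ((Equiv.subRight (1 : ℤ)).summable_iff.mpr this).congr fun m => by
      simp [Function.comp]
  have s2 : Summable fun m : ℤ => cf q N (m + 1) * w ^ m := by
    have := (summable_cf_mul q N fun m => w ^ (m - 1))
    exact ((Equiv.addRight (1 : ℤ)).summable_iff.mpr this).congr fun m => by
      simp [Function.comp]
  have e : (1 + q ^ (2 * N + 1) * w) * (1 + q ^ (2 * N + 1) * w⁻¹) =
      (1 + q ^ (4 * N + 2)) + q ^ (2 * N + 1) * w + q ^ (2 * N + 1) * w⁻¹ := by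
    field_simp
    ring
  rw [e, mul_add, mul_add, ← mul_assoc _ _ w, mul_comm _ (q ^ (2 * N + 1)), mul_assoc _ _ w, h1,
    ← mul_assoc _ _ w⁻¹, mul_comm _ (q ^ (2 * N + 1)), mul_assoc _ _ w⁻¹, h2,
    ← tsum_mul_right, ← tsum_mul_left, ← tsum_mul_left,
    ← (h0.mul_right _).tsum_add (s1.mul_left _), ← ((h0.mul_right _).add (s1.mul_left _)).tsum_add
      (s2.mul_left _)]
  refine tsum_congr fun m => ?_
  rw [cf_rec hq N m]
  ring

include hq hw in
/-- **Finite Jacobi triple product.** -/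
theorem prod_eq_finTheta (N : ℕ) :
    ∏ k ∈ range N, ((1 + q ^ (2 * k + 1) * w) * (1 + q ^ (2 * k + 1) * w⁻¹)) = finTheta q N w := by
  induction N with
  | zero =>
    unfold finTheta
    rw [prod_range_zero, tsum_eq_single (0 : ℤ)]
    · simp [cf_zero]
    · intro m hm
      simp [cf_zero, hm]
  | succ N ih => rw [prod_range_succ, ih, finTheta_succ hq hw]

end Complex

end Fermat.Agent.DS.Klein
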