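/-
S48 / (N5)-KLEIN (helper21): the analytic **Jacobi triple product**

  `∏_{n ≥ 0} (1 - q^(2n+2)) (1 + q^(2n+1) w) (1 + q^(2n+1) w⁻¹) = ∑_{m ∈ ℤ} q^(m²) w^m`,  `‖q‖ < 1`, `w ≠ 0`,

from the finite form (`TripleFinite.lean`) by Tannery's theorem.  Mathlib only.
-/
import Mathlib
import Fermat.Agent.DS.Klein.TripleFinite

set_option autoImplicit false

namespace Fermat.Agent.DS.Klein

open Finset Filter Topology

variable {q : ℂ} (hq : ‖q‖ < 1)

/-- The infinite `q²`-Pochhammer product `(q²;q²)_∞`. -/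
noncomputable def pchInf (q : ℂ) : ℂ := ∏' j : ℕ, (1 - q ^ (2 * (j + 1)))

include hq in
lemma norm_sq_lt_one : ‖q ^ 2‖ < 1 := by
  rw [norm_pow]
  exact pow_lt_one₀ (norm_nonneg _) hq two_ne_zero

include hq in
lemma multipliable_pch : Multipliable fun j : ℕ => (1 - q ^ (2 * (j + 1))) := by
  have := ModularForm.multipliable_one_sub_pow (norm_sq_lt_one hq)
  simpa [pow_mul] using this

include hq in
lemma one_sub_pow_ne_zero (j : ℕ) : (1 : ℂ) - q ^ (2 * (j + 1)) ≠ 0 := by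
  intro h
  have h1 : q ^ (2 * (j + 1)) = 1 := (sub_eq_zero.mp h).symm
  have h2 : ‖q‖ ^ (2 * (j + 1)) = 1 := by rw [← norm_pow, h1, norm_one]
  have h3 : ‖q‖ ^ (2 * (j + 1)) < 1 := pow_lt_one₀ (norm_nonneg _) hq (by omega)
  linarith

include hq in
lemma pch_ne_zero (k : ℕ) : pch q k ≠ 0 :=
  Finset.prod_ne_zero_iff.mpr fun j _ => one_sub_pow_ne_zero hq j

include hq in
lemma pchInf_ne_zero : pchInf q ≠ 0 := by
  unfold pchInf
  have h := tprod_one_add_ne_zero_of_summable (f := fun j : ℕ => -q ^ (2 * (j + 1))) ?_ ?_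
  · simpa [sub_eq_add_neg] using h
  · intro j
    simpa [sub_eq_add_neg] using one_sub_pow_ne_zero hq j
  · have := (summable_nat_add_iff 1).mpr
      (summable_geometric_of_lt_one (norm_nonneg _) (norm_sq_lt_one hq))
    simpa [pow_mul, norm_pow] using this

include hq in
lemma tendsto_pch : Tendsto (fun k => pch q k) atTop (𝓝 (pchInf q)) :=
  (multipliable_pch hq).hasProd.tendsto_prod_nat

include hq in
/-- The partial Pochhammer products and their inverses are uniformly bounded. -/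
lemma exists_pch_bound : ∃ C : ℝ, 0 < C ∧ ∀ k, ‖pch q k‖ ≤ C ∧ ‖(pch q k)⁻¹‖ ≤ C := by
  have h1 := (tendsto_pch hq).norm.isBoundedUnder_le
  have h2 := ((tendsto_pch hq).inv₀ (pchInf_ne_zero hq)).norm.isBoundedUnder_le
  obtain ⟨C1, hC1⟩ := h1.bddAbove_range
  obtain ⟨C2, hC2⟩ := h2.bddAbove_range
  refine ⟨max (max C1 C2) 1, by positivity, fun k => ⟨?_, ?_⟩⟩
  · exact le_trans (hC1 ⟨k, rfl⟩) (le_trans (le_max_left _ _) (le_max_left _ _))
  · exact le_trans (hC2 ⟨k, rfl⟩) (le_trans (le_max_right _ _) (le_max_left _ _))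


/-! ### Summability of the theta series -/

/-- `∑_{a ≥ 0} r^(a²) s^a` converges for `0 ≤ r < 1`. -/
lemma summable_pow_sq_mul_pow {r s : ℝ} (hr0 : 0 ≤ r) (hr1 : r < 1) (hs : 0 ≤ s) :
    Summable fun a : ℕ => r ^ (a ^ 2) * s ^ a := by
  -- choose `a₀` with `r^a₀ * s ≤ 1/2`
  obtain ⟨a₀, ha₀⟩ : ∃ a₀ : ℕ, r ^ a₀ * s ≤ 1 / 2 := by
    have h : Tendsto (fun n : ℕ => r ^ n * s) atTop (𝓝 (0 * s)) :=
      (tendsto_pow_atTop_nhds_zero_of_lt_one hr0 hr1).mul_const s
    rw [zero_mul] at h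
    exact ((h.eventually (eventually_le_nhds (by norm_num : (0 : ℝ) < 1 / 2))).exists)
  have hgeo : Summable fun a : ℕ => ((1 : ℝ) / 2) ^ a :=
    summable_geometric_of_lt_one (by norm_num) (by norm_num)
  refine hgeo.of_norm_bounded_eventually_nat ?_
  filter_upwards [eventually_ge_atTop a₀] with a ha
  have h1 : r ^ (a ^ 2) * s ^ a = (r ^ a * s) ^ a := by
    rw [mul_pow, ← pow_mul, sq]
  rw [h1, Real.norm_of_nonneg (by positivity)]
  have h2 : r ^ a * s ≤ r ^ a₀ * s :=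
    mul_le_mul_of_nonneg_right (pow_le_pow_of_le_one hr0 hr1.le ha) hs
  exact pow_le_pow_left₀ (by positivity) (h2.trans ha₀) a

/-- The bound `r^(m²) ‖w‖^m` is summable over `ℤ`. -/
lemma summable_theta_bound {r : ℝ} (hr0 : 0 ≤ r) (hr1 : r < 1) {t : ℝ} (ht : 0 < t) :
    Summable fun m : ℤ => r ^ (m.natAbs ^ 2) * t ^ m := by
  refine Summable.of_nat_of_neg ?_ ?_
  · simpa using summable_pow_sq_mul_pow hr0 hr1 ht.le
  · have := summable_pow_sq_mul_pow hr0 hr1 (inv_nonneg.mpr ht.le)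
    refine this.congr fun a => ?_
    simp [zpow_neg, inv_pow]


/-! ### Coefficients: bound and limit -/

lemma norm_cf_le {C : ℝ} (hC : ∀ k, ‖pch q k‖ ≤ C ∧ ‖(pch q k)⁻¹‖ ≤ C) (hC0 : 0 < C)
    (N : ℕ) (m : ℤ) : ‖cf q N m‖ ≤ C ^ 3 * ‖q‖ ^ (m.natAbs ^ 2) := by
  unfold cf dcf
  split_ifs with h
  · rw [div_eq_mul_inv, mul_inv, norm_mul, norm_mul, norm_mul, norm_pow]
    have h1 := (hC (2 * N)).1
    have h2 := (hC (N + m.natAbs)).2
    have h3 := (hC (N - m.natAbs)).2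
    have h0 : 0 ≤ ‖q‖ ^ (m.natAbs ^ 2) := by positivity
    calc ‖q‖ ^ (m.natAbs ^ 2) * ‖pch q (2 * N)‖ *
          (‖(pch q (N + m.natAbs))⁻¹‖ * ‖(pch q (N - m.natAbs))⁻¹‖)
        ≤ ‖q‖ ^ (m.natAbs ^ 2) * C * (C * C) := by gcongr
      _ = C ^ 3 * ‖q‖ ^ (m.natAbs ^ 2) := by ring
  · rw [norm_zero]
    positivity

include hq in
lemma tendsto_cf (m : ℤ) :
    Tendsto (fun N => cf q N m) atTop (𝓝 (q ^ (m.natAbs ^ 2) / pchInf q)) := by
  have hP := pchInf_ne_zero hq
  have h1 : Tendsto (fun N => pch q (2 * N)) atTop (𝓝 (pchInf q)) :=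
    (tendsto_pch hq).comp (tendsto_id.const_mul_atTop' (by norm_num : 0 < 2))
  have h2 : Tendsto (fun N => pch q (N + m.natAbs)) atTop (𝓝 (pchInf q)) :=
    (tendsto_pch hq).comp (tendsto_add_atTop_nat _)
  have h3 : Tendsto (fun N => pch q (N - m.natAbs)) atTop (𝓝 (pchInf q)) :=
    (tendsto_pch hq).comp (tendsto_sub_atTop_nat _)
  have h4 : Tendsto (fun N => q ^ (m.natAbs ^ 2) * pch q (2 * N) /
      (pch q (N + m.natAbs) * pch q (N - m.natAbs))) atTop
      (𝓝 (q ^ (m.natAbs ^ 2) * pchInf q / (pchInf q * pchInf q))) :=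
    (h1.const_mul _).div (h2.mul h3) (mul_ne_zero hP hP)
  have e : q ^ (m.natAbs ^ 2) * pchInf q / (pchInf q * pchInf q) =
      q ^ (m.natAbs ^ 2) / pchInf q := by
    field_simp
  rw [e] at h4
  refine h4.congr' ?_
  filter_upwards [eventually_ge_atTop m.natAbs] with N hN
  exact (dcf_of_le q hN).symm


/-! ### The triple product -/

/-- The theta series `∑_{m ∈ ℤ} q^(m²) w^m`. -/
noncomputable def thetaSeries (q w : ℂ) : ℂ := ∑' m : ℤ, q ^ (m.natAbs ^ 2) * w ^ m

include hq in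
lemma summable_thetaSeries {w : ℂ} (hw : w ≠ 0) :
    Summable fun m : ℤ => q ^ (m.natAbs ^ 2) * w ^ m := by
  refine Summable.of_norm ?_
  have := summable_theta_bound (norm_nonneg q) hq (norm_pos_iff.mpr hw)
  refine this.congr fun m => ?_
  rw [norm_mul, norm_pow, norm_zpow]

include hq in
lemma summable_oddFactor {w : ℂ} : Summable fun k : ℕ => q ^ (2 * k + 1) * w := by
  have h : Summable fun k : ℕ => (q ^ 2) ^ k :=
    summable_geometric_of_norm_lt_one (norm_sq_lt_one hq)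
  refine (h.mul_left (q * w)).congr fun k => ?_
  rw [← pow_mul]
  ring

include hq in
lemma multipliable_oddFactors (w : ℂ) :
    Multipliable fun k : ℕ => (1 + q ^ (2 * k + 1) * w) * (1 + q ^ (2 * k + 1) * w⁻¹) :=
  (Complex.multipliable_one_add_of_summable (summable_oddFactor hq)).mul
    (Complex.multipliable_one_add_of_summable (summable_oddFactor hq))

include hq in
lemma tendsto_finTheta {w : ℂ} (hw : w ≠ 0) :
    Tendsto (fun N => finTheta q N w) atTop (𝓝 (thetaSeries q w / pchInf q)) := by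
  obtain ⟨C, hC0, hC⟩ := exists_pch_bound hq
  have hsum : Summable fun m : ℤ => C ^ 3 * (‖q‖ ^ (m.natAbs ^ 2) * ‖w‖ ^ m) :=
    (summable_theta_bound (norm_nonneg q) hq (norm_pos_iff.mpr hw)).mul_left _
  have key := tendsto_tsum_of_dominated_convergence (𝓕 := atTop)
    (f := fun N (m : ℤ) => cf q N m * w ^ m)
    (g := fun m : ℤ => q ^ (m.natAbs ^ 2) / pchInf q * w ^ m) hsum
    (fun m => (tendsto_cf hq m).mul_const _)
    (Eventually.of_forall fun N m => by
      rw [norm_mul, norm_zpow, ← mul_assoc]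
      exact mul_le_mul_of_nonneg_right (norm_cf_le hC hC0 N m) (by positivity))
  have e : ∑' m : ℤ, q ^ (m.natAbs ^ 2) / pchInf q * w ^ m = thetaSeries q w / pchInf q := by
    unfold thetaSeries
    rw [div_eq_mul_inv, ← tsum_mul_right]
    refine tsum_congr fun m => ?_
    ring
  rw [e] at key
  exact key

include hq in
/-- **Jacobi triple product**, odd factors: `∏ (1 + q^(2k+1) w)(1 + q^(2k+1)/w) = θ(q,w) / (q²;q²)_∞`. -/
theorem tprod_oddFactors {w : ℂ} (hw : w ≠ 0) :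
    ∏' k : ℕ, ((1 + q ^ (2 * k + 1) * w) * (1 + q ^ (2 * k + 1) * w⁻¹)) =
      thetaSeries q w / pchInf q := by
  have h1 : Tendsto (fun N => ∏ k ∈ range N,
      ((1 + q ^ (2 * k + 1) * w) * (1 + q ^ (2 * k + 1) * w⁻¹))) atTop
      (𝓝 (∏' k : ℕ, ((1 + q ^ (2 * k + 1) * w) * (1 + q ^ (2 * k + 1) * w⁻¹)))) :=
    (multipliable_oddFactors hq w).hasProd.tendsto_prod_nat
  have h2 := tendsto_finTheta hq hw
  refine tendsto_nhds_unique h1 (h2.congr fun N => ?_)
  exact (prod_eq_finTheta (pch_ne_zero hq) hw N).symm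

include hq in
/-- **Jacobi triple product**:
`∏_{n ≥ 0} (1 - q^(2n+2)) (1 + q^(2n+1) w) (1 + q^(2n+1) w⁻¹) = ∑_{m ∈ ℤ} q^(m²) w^m`. -/
theorem jacobi_triple_product {w : ℂ} (hw : w ≠ 0) :
    ∏' n : ℕ, ((1 - q ^ (2 * (n + 1))) *
        ((1 + q ^ (2 * n + 1) * w) * (1 + q ^ (2 * n + 1) * w⁻¹))) =
      ∑' m : ℤ, q ^ (m.natAbs ^ 2) * w ^ m := by
  rw [(multipliable_pch hq).tprod_mul (multipliable_oddFactors hq w), tprod_oddFactors hq hw]
  change pchInf q * (thetaSeries q w / pchInf q) = thetaSeries q w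
  field_simp [pchInf_ne_zero hq]

include hq in
/-- The theta series vanishes only where a factor of the product does. -/
theorem thetaSeries_eq_zero_iff {w : ℂ} (hw : w ≠ 0) :
    thetaSeries q w = 0 ↔
      ∃ k : ℕ, 1 + q ^ (2 * k + 1) * w = 0 ∨ 1 + q ^ (2 * k + 1) * w⁻¹ = 0 := by
  have hP := pchInf_ne_zero hq
  have h := tprod_oddFactors hq hw
  constructor
  · intro h0
    by_contra hne
    push Not at hne
    have hne' : ∀ k : ℕ, (1 + q ^ (2 * k + 1) * w) * (1 + q ^ (2 * k + 1) * w⁻¹) ≠ 0 :=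
      fun k => mul_ne_zero (hne k).1 (hne k).2
    -- a convergent product `∏ (1 + f k)` with summable `f` and nonzero factors is nonzero
    have hs : Summable fun k : ℕ =>
        ‖q ^ (2 * k + 1) * w + q ^ (2 * k + 1) * w⁻¹ +
          q ^ (2 * k + 1) * w * (q ^ (2 * k + 1) * w⁻¹)‖ := by
      have s1 := summable_oddFactor hq (w := w)
      have s2 := summable_oddFactor hq (w := w⁻¹)
      have s3 : Summable fun k : ℕ => q ^ (2 * k + 1) * w * (q ^ (2 * k + 1) * w⁻¹) := by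
        have := summable_oddFactor (norm_sq_lt_one hq) (w := (1 : ℂ))
        refine this.congr fun k => ?_
        rw [mul_one, ← pow_mul]
        field_simp
        ring
      exact ((s1.add s2).add s3).norm
    have hnz := tprod_one_add_ne_zero_of_summable
      (f := fun k : ℕ => q ^ (2 * k + 1) * w + q ^ (2 * k + 1) * w⁻¹ +
          q ^ (2 * k + 1) * w * (q ^ (2 * k + 1) * w⁻¹))
      (fun k => by
        have := hne' k
        convert this using 1
        ring) hs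
    apply hnz
    have e : (fun k : ℕ => 1 + (q ^ (2 * k + 1) * w + q ^ (2 * k + 1) * w⁻¹ +
          q ^ (2 * k + 1) * w * (q ^ (2 * k + 1) * w⁻¹))) =
        fun k : ℕ => (1 + q ^ (2 * k + 1) * w) * (1 + q ^ (2 * k + 1) * w⁻¹) := by
      funext k
      ring
    rw [e, h, h0, zero_div]
  · rintro ⟨k, hk⟩
    have hz : ∏' k : ℕ, ((1 + q ^ (2 * k + 1) * w) * (1 + q ^ (2 * k + 1) * w⁻¹)) = 0 := by
      refine tprod_of_exists_eq_zero ⟨k, ?_⟩
      rcases hk with hk | hk <;> simp [hk]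
    rw [h] at hz
    exact (div_eq_zero_iff.mp hz).resolve_right hP

end Fermat.Agent.DS.Klein
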