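/-
S48 / (N5)-KLEIN (helper21): Mathlib's two-variable Jacobi theta function `jacobiTheta₂ z τ` as a
theta series in `q = e^{π i τ}`, `w = e^{2 π i z}`, its triple-product formula and its zero set.
Mathlib only (+ `TripleProduct.lean`).
-/
import Mathlib
import Fermat.Agent.DS.Klein.TripleProduct

set_option autoImplicit false

namespace Fermat.Agent.DS.Klein

open Complex Real

/-- the nome `q = e^{π i τ}` -/
noncomputable def nome (τ : ℂ) : ℂ := cexp (π * I * τ)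

/-- `w = e^{2 π i z}` -/
noncomputable def wvar (z : ℂ) : ℂ := cexp (2 * π * I * z)

lemma wvar_ne_zero (z : ℂ) : wvar z ≠ 0 := Complex.exp_ne_zero _

lemma nome_ne_zero (τ : ℂ) : nome τ ≠ 0 := Complex.exp_ne_zero _

lemma norm_nome_lt_one {τ : ℂ} (hτ : 0 < τ.im) : ‖nome τ‖ < 1 := by
  unfold nome
  rw [Complex.norm_exp]
  have : (↑π * I * τ).re = -(π * τ.im) := by
    simp [mul_re, mul_im]
  rw [this, Real.exp_lt_one_iff]
  exact neg_neg_of_pos (mul_pos Real.pi_pos hτ)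

lemma jacobiTheta₂_term_eq (n : ℤ) (z τ : ℂ) :
    jacobiTheta₂_term n z τ = nome τ ^ (n.natAbs ^ 2) * wvar z ^ n := by
  unfold jacobiTheta₂_term nome wvar
  rw [← Complex.exp_nat_mul, ← Complex.exp_int_mul, ← Complex.exp_add]
  congr 1
  have h : ((n.natAbs ^ 2 : ℕ) : ℂ) = (n : ℂ) ^ 2 := by
    have h1 : ((n.natAbs : ℤ) : ℂ) ^ 2 = (n : ℂ) ^ 2 := by
      have := congrArg (Int.cast : ℤ → ℂ) (Int.natAbs_sq n)
      rwa [Int.cast_pow, Int.cast_pow] at this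
    rw [Nat.cast_pow, ← h1, Int.cast_natCast]
  rw [h]
  ring

/-- `jacobiTheta₂ z τ = ∑ q^(n²) w^n`. -/
lemma jacobiTheta₂_eq_thetaSeries (z τ : ℂ) :
    jacobiTheta₂ z τ = thetaSeries (nome τ) (wvar z) := by
  unfold jacobiTheta₂ thetaSeries
  exact tsum_congr fun n => jacobiTheta₂_term_eq n z τ

/-- **Jacobi triple product** for Mathlib's `jacobiTheta₂`. -/
theorem jacobiTheta₂_eq_tprod (z : ℂ) {τ : ℂ} (hτ : 0 < τ.im) :
    jacobiTheta₂ z τ =
      ∏' n : ℕ, ((1 - nome τ ^ (2 * (n + 1))) *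
        ((1 + nome τ ^ (2 * n + 1) * wvar z) * (1 + nome τ ^ (2 * n + 1) * (wvar z)⁻¹))) := by
  rw [jacobiTheta₂_eq_thetaSeries, jacobi_triple_product (norm_nome_lt_one hτ) (wvar_ne_zero z)]
  rfl

/-- Zeros of `jacobiTheta₂` (in multiplicative form). -/
theorem jacobiTheta₂_eq_zero_iff (z : ℂ) {τ : ℂ} (hτ : 0 < τ.im) :
    jacobiTheta₂ z τ = 0 ↔
      ∃ k : ℕ, 1 + nome τ ^ (2 * k + 1) * wvar z = 0 ∨
        1 + nome τ ^ (2 * k + 1) * (wvar z)⁻¹ = 0 := by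
  rw [jacobiTheta₂_eq_thetaSeries]
  exact thetaSeries_eq_zero_iff (norm_nome_lt_one hτ) (wvar_ne_zero z)

end Fermat.Agent.DS.Klein
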