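/-
S48 / (N5)-KLEIN (helper21): zeros of `ϑ₁₁`, holomorphy of the inverse Klein forms `kleinInv a`
for real `a ∉ ℤ²`, and invariance of `kleinInv (0, 2s/N)` under `Γ₁(N) ∩ Γ₀(N²)`.  Mathlib only.
-/
import Mathlib
import Fermat.Agent.DS.Klein.ThetaProduct
import Fermat.Agent.DS.Klein.KleinInv

set_option autoImplicit false

namespace Fermat.Agent.DS.Klein

open Complex Real ModularGroup
open UpperHalfPlane hiding I
open scoped MatrixGroups ModularForm Manifold

/-! ### zeros of `ϑ₁₁` -/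

lemma neg_cexp_eq (x : ℂ) : -cexp x = cexp (π * I + x) := by
  rw [Complex.exp_add, Complex.exp_pi_mul_I]; ring

/-- If `ϑ₁₁(z;τ) = 0` then `z` is a lattice point. -/
lemma thetaOdd_eq_zero_imp {z τ : ℂ} (hτ : 0 < τ.im) (h : thetaOdd z τ = 0) :
    ∃ m n : ℤ, z = m * τ + n := by
  unfold thetaOdd at h
  rcases mul_eq_zero.mp h with h | h
  · exact absurd h (Complex.exp_ne_zero _)
  rw [jacobiTheta₂_eq_zero_iff _ hτ] at h
  have h2 : (2 * π * I : ℂ) ≠ 0 := by
    simp [Real.pi_ne_zero, I_ne_zero]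
  obtain ⟨k, hk | hk⟩ := h
  · have h1 : nome τ ^ (2 * k + 1) * wvar (z + 1 / 2 + τ / 2) =
        -cexp (2 * π * I * ((k + 1) * τ + z)) := by
      unfold nome wvar
      rw [← Complex.exp_nat_mul, ← Complex.exp_add, neg_cexp_eq]
      congr 1
      push_cast
      ring
    rw [h1] at hk
    have h3 : cexp (2 * π * I * ((k + 1) * τ + z)) = 1 := by linear_combination -hk
    rw [Complex.exp_eq_one_iff] at h3
    obtain ⟨n, hn⟩ := h3
    refine ⟨-(k + 1), n, ?_⟩
    have h4 : ((k : ℂ) + 1) * τ + z = n := by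
      apply mul_left_cancel₀ h2
      rw [hn]; ring
    push_cast
    linear_combination h4
  · have h1 : nome τ ^ (2 * k + 1) * (wvar (z + 1 / 2 + τ / 2))⁻¹ =
        -cexp (2 * π * I * (k * τ - z)) := by
      unfold nome wvar
      rw [← Complex.exp_neg, ← Complex.exp_nat_mul, ← Complex.exp_add, neg_cexp_eq]
      -- exponents agree up to `-2πi`
      have : ((2 * k + 1 : ℕ) : ℂ) * (π * I * τ) + -(2 * π * I * (z + 1 / 2 + τ / 2)) =
          (π * I + 2 * π * I * (k * τ - z)) + ((-1 : ℤ) : ℂ) * (2 * π * I) := by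
        push_cast
        ring
      rw [this, Complex.exp_add (π * I + 2 * π * I * (k * τ - z)), exp_int_mul_two_pi_mul_I,
        mul_one]
    rw [h1] at hk
    have h3 : cexp (2 * π * I * (k * τ - z)) = 1 := by linear_combination -hk
    rw [Complex.exp_eq_one_iff] at h3
    obtain ⟨n, hn⟩ := h3
    refine ⟨k, -n, ?_⟩
    have h4 : (k : ℂ) * τ - z = n := by
      apply mul_left_cancel₀ h2
      rw [hn]; ring
    push_cast
    linear_combination -h4

/-- `ϑ₁₁(a₁τ + a₂; τ) ≠ 0` for real `(a₁, a₂) ∉ ℤ²`. -/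
lemma thetaOdd_ne_zero_of_real {a1 a2 : ℝ} (ha : ¬ ∃ m n : ℤ, a1 = m ∧ a2 = n) {τ : ℂ}
    (hτ : 0 < τ.im) : thetaOdd (a1 * τ + a2) τ ≠ 0 := by
  intro h
  obtain ⟨m, n, hmn⟩ := thetaOdd_eq_zero_imp hτ h
  apply ha
  have him := congrArg Complex.im hmn
  have hre := congrArg Complex.re hmn
  simp only [add_im, mul_im, ofReal_re, ofReal_im, zero_mul, add_zero, intCast_re, intCast_im,
    add_re, mul_re, sub_zero] at him hre
  have h1 : (a1 - m) * τ.im = 0 := by linarith
  have h2 : a1 = m := by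
    rcases mul_eq_zero.mp h1 with h | h
    · linarith
    · exact absurd h hτ.ne'
  refine ⟨m, n, h2, ?_⟩
  rw [h2] at hre
  linarith

/-! ### differentiability -/

lemma differentiableAt_thetaOdd_line (a1 a2 : ℂ) {τ : ℂ} (hτ : 0 < τ.im) :
    DifferentiableAt ℂ (fun t : ℂ => thetaOdd (a1 * t + a2) t) τ := by
  unfold thetaOdd
  refine DifferentiableAt.mul ?_ ?_
  · fun_prop
  · have h1 := (hasFDerivAt_jacobiTheta₂ (a1 * τ + a2 + 1 / 2 + τ / 2) hτ).differentiableAt
    have h2 : DifferentiableAt ℂ (fun t : ℂ => ((a1 * t + a2 + 1 / 2 + t / 2, t) : ℂ × ℂ)) τ := by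
      fun_prop
    exact DifferentiableAt.comp (f := fun t : ℂ => ((a1 * t + a2 + 1 / 2 + t / 2, t) : ℂ × ℂ))
      (g := fun p : ℂ × ℂ => jacobiTheta₂ p.1 p.2) τ h1 h2

/-- the series of `τ ↦ jacobiTheta₂' (1/2 + τ/2) τ` converges locally uniformly -/
lemma differentiableAt_jacobiTheta₂'_half {τ : ℂ} (hτ : 0 < τ.im) :
    DifferentiableAt ℂ (fun t : ℂ => jacobiTheta₂' (1 / 2 + t / 2) t) τ := by
  set T : ℝ := τ.im / 2 with hT
  set S : ℝ := τ.im with hS
  have hTpos : 0 < T := by positivity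
  set U : Set ℂ := {t | T < t.im ∧ t.im < 2 * S} with hU
  have hUo : IsOpen U := by
    apply IsOpen.inter
    · exact isOpen_lt continuous_const Complex.continuous_im
    · exact isOpen_lt Complex.continuous_im continuous_const
  have hτU : τ ∈ U := by
    constructor
    · show τ.im / 2 < τ.im
      linarith
    · show τ.im < 2 * τ.im
      linarith
  have hsum : Summable (fun n : ℤ => 2 * π * ((|n| : ℤ) : ℝ) *
      rexp (-π * (T * n ^ 2 - 2 * S * ((|n| : ℤ) : ℝ)))) := by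
    have := (summable_pow_mul_jacobiTheta₂_term_bound S hTpos 1).mul_left (2 * π)
    refine this.congr (fun n => ?_)
    simp only [pow_one]
    ring
  have hdiff : DifferentiableOn ℂ
      (fun t : ℂ => ∑' n : ℤ, jacobiTheta₂'_term n (1 / 2 + t / 2) t) U := by
    apply differentiableOn_tsum_of_summable_norm hsum
    · intro n t _
      apply DifferentiableAt.differentiableWithinAt
      unfold jacobiTheta₂'_term jacobiTheta₂_term
      fun_prop
    · exact hUo
    · intro n t ht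
      apply norm_jacobiTheta₂'_term_le hTpos _ ht.1.le n
      have : (1 / 2 + t / 2 : ℂ).im = t.im / 2 := by
        simp
      rw [this, abs_of_pos (by linarith [ht.1] : 0 < t.im / 2)]
      linarith [ht.2]
  exact hdiff.differentiableAt (hUo.mem_nhds hτU)

lemma differentiableAt_thetaOdd' {τ : ℂ} (hτ : 0 < τ.im) : DifferentiableAt ℂ thetaOdd' τ := by
  unfold thetaOdd'
  refine DifferentiableAt.mul ?_ (differentiableAt_jacobiTheta₂'_half hτ)
  fun_prop

lemma differentiableAt_kleinInvC {a1 a2 : ℝ} (ha : ¬ ∃ m n : ℤ, a1 = m ∧ a2 = n) {τ : ℂ}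
    (hτ : 0 < τ.im) : DifferentiableAt ℂ (kleinInvC ((a1 : ℂ), (a2 : ℂ))) τ := by
  unfold kleinInvC
  refine DifferentiableAt.div (differentiableAt_thetaOdd' hτ) ?_ ?_
  · refine DifferentiableAt.mul ?_ (differentiableAt_thetaOdd_line _ _ hτ)
    fun_prop
  · exact mul_ne_zero (Complex.exp_ne_zero _) (thetaOdd_ne_zero_of_real ha hτ)

/-- **Holomorphy** of the inverse Klein forms with real characteristics `a ∉ ℤ²`. -/
theorem mdifferentiable_kleinInv {a1 a2 : ℝ} (ha : ¬ ∃ m n : ℤ, a1 = m ∧ a2 = n) :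
    MDiff (kleinInv ((a1 : ℂ), (a2 : ℂ))) := by
  rw [UpperHalfPlane.mdifferentiable_iff]
  intro τ hτ
  have h1 := (differentiableAt_kleinInvC ha hτ).differentiableWithinAt (s := {z : ℂ | 0 < z.im})
  refine h1.congr (fun t ht => ?_) ?_
  · simp only [Function.comp_apply, kleinInv, ofComplex_apply_of_im_pos ht, coe_mk]
  · simp only [Function.comp_apply, kleinInv, ofComplex_apply_of_im_pos hτ, coe_mk]

/-! ### invariance -/

/-- `kleinInv (0, 2s/N)` is invariant under every `γ ∈ SL(2,ℤ)` with `N² ∣ c` and `N ∣ d - 1`. -/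
theorem kleinInv_slash_of_mem {N : ℕ} (hN : N ≠ 0) (s : ℤ) (γ : SL(2, ℤ))
    (hc : ((N : ℤ) ^ 2) ∣ γ 1 0) (hd : (N : ℤ) ∣ γ 1 1 - 1) :
    kleinInv (0, 2 * s / N) ∣[(1 : ℤ)] γ = kleinInv (0, 2 * s / N) := by
  rw [kleinInv_slash]
  obtain ⟨c', hc'⟩ := hc
  obtain ⟨d', hd'⟩ := hd
  have hd'' : γ 1 1 = 1 + N * d' := by linarith
  have hNC : (N : ℂ) ≠ 0 := by exact_mod_cast hN
  have h1 : rowAct (0, 2 * s / N) γ =
      ((0 : ℂ) + ((2 * s * N * c' : ℤ) : ℂ), (2 * s / N : ℂ) + ((2 * s * d' : ℤ) : ℂ)) := by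
    unfold rowAct
    simp only [zero_mul, zero_add]
    rw [hc', hd'']
    ext
    · push_cast
      field_simp
    · push_cast
      field_simp
  rw [h1]
  ext τ
  unfold kleinInv
  have hshift := kleinInvC_add_int ((0 : ℂ), (2 * s / N : ℂ)) (2 * s * N * c') (2 * s * d') τ
  simp only at hshift
  rw [hshift]
  -- the multiplier is `exp(-πi · 2k) = 1`
  have h2 : -(π * I * ((0 : ℂ) * ((2 * s * d' : ℤ) : ℂ) - (2 * s / N : ℂ) * ((2 * s * N * c' : ℤ) : ℂ)
      + ((2 * s * N * c' : ℤ) : ℂ) * ((2 * s * d' : ℤ) : ℂ) + ((2 * s * d' : ℤ) : ℂ)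
      - ((2 * s * N * c' : ℤ) : ℂ))) =
      ((-(-2 * s ^ 2 * c' + 2 * s ^ 2 * N * c' * d' + s * d' - s * N * c') : ℤ) : ℂ) *
        (2 * π * I) := by
    push_cast
    field_simp
    ring
  rw [h2, exp_int_mul_two_pi_mul_I, one_mul]

end Fermat.Agent.DS.Klein
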