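/-
S48 / (N5)-KLEIN (helper21): the inverse Klein forms `kleinInv (b₁,b₂)` (real `b ∉ ℤ²`) are bounded
as `Im τ → ∞`.  Mathlib only.
-/
import Mathlib
import Fermat.Agent.DS.Klein.KleinHolo

set_option autoImplicit false

namespace Fermat.Agent.DS.Klein

open Complex Real
open UpperHalfPlane hiding I

/-! ### generalities -/

/-- dominant-terms lower bound for a series -/
lemma norm_tsum_ge_sub {f : ℤ → ℂ} (hf : Summable f) (F : Finset ℤ) {u : ℤ → ℝ} (hu : Summable u)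
    (hu0 : ∀ n, 0 ≤ u n) {ε : ℝ} (hε : 0 ≤ ε) (h : ∀ n, n ∉ F → ‖f n‖ ≤ ε * u n) :
    ‖∑ n ∈ F, f n‖ - ε * ∑' n, u n ≤ ‖∑' n, f n‖ := by
  have h1 := hf.sum_add_tsum_compl (s := F)
  have hsn : Summable fun x : ↑((F : Set ℤ)ᶜ) => ‖f x‖ := (hf.norm).subtype _
  have h2 : ‖∑' x : ↑((F : Set ℤ)ᶜ), f x‖ ≤ ε * ∑' n, u n := by
    calc _ ≤ ∑' x : ↑((F : Set ℤ)ᶜ), ‖f x‖ := norm_tsum_le_tsum_norm hsn
      _ ≤ ∑' x : ↑((F : Set ℤ)ᶜ), ε * u x := by
          exact Summable.tsum_le_tsum (fun x => h x x.2) hsn ((hu.mul_left ε).subtype _)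
      _ ≤ ∑' n, ε * u n := by
          exact Summable.tsum_subtype_le (fun n => ε * u n) _ (fun n => mul_nonneg hε (hu0 n))
            (hu.mul_left ε)
      _ = ε * ∑' n, u n := tsum_mul_left
  have h3 : ‖∑ n ∈ F, f n‖ ≤ ‖∑' n, f n‖ + ‖∑' x : ↑((F : Set ℤ)ᶜ), f x‖ := by
    have := norm_sub_le (∑' n, f n) (∑' x : ↑((F : Set ℤ)ᶜ), f x)
    rw [← h1, add_sub_cancel_right] at this
    rw [← h1]
    exact this
  linarith

/-- a summable Gaussian family -/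
lemma summable_gauss {δ : ℝ} (hδ : 0 < δ) :
    Summable (fun n : ℤ => rexp (-π * δ * ((n : ℝ) ^ 2 - 1))) := by
  have := (summable_pow_mul_jacobiTheta₂_term_bound 0 hδ 0).mul_left (rexp (π * δ))
  refine this.congr (fun n => ?_)
  rw [pow_zero, one_mul, ← Real.exp_add]
  congr 1
  ring

lemma one_le_int_sq {m : ℤ} (hm : m ≠ 0) : (1 : ℝ) ≤ (m : ℝ) ^ 2 := by
  have h1 : (1 : ℤ) ≤ m ^ 2 := by
    have := Int.one_le_abs hm
    nlinarith [sq_abs m, abs_nonneg m]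
  exact_mod_cast h1

/-- the key exponent inequality: `y δ m² ≥ y δ + δ (m² - 1)` for `y ≥ 1`, `m ≠ 0`. -/
lemma exp_gauss_le {y δ : ℝ} (hy : 1 ≤ y) (hδ : 0 ≤ δ) {m : ℤ} (hm : m ≠ 0) :
    rexp (-π * y * (δ * (m : ℝ) ^ 2)) ≤ rexp (-π * y * δ) * rexp (-π * δ * ((m : ℝ) ^ 2 - 1)) := by
  rw [← Real.exp_add, Real.exp_le_exp]
  have h1 := one_le_int_sq hm
  have h2 : 0 ≤ (y - 1) * (δ * ((m : ℝ) ^ 2 - 1)) :=
    mul_nonneg (by linarith) (mul_nonneg hδ (by linarith))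
  have h3 : -π * y * (δ * (m : ℝ) ^ 2) - (-π * y * δ + -π * δ * ((m : ℝ) ^ 2 - 1)) =
      -π * ((y - 1) * (δ * ((m : ℝ) ^ 2 - 1))) := by ring
  have h4 : -π * ((y - 1) * (δ * ((m : ℝ) ^ 2 - 1))) ≤ 0 := by
    have := mul_nonneg Real.pi_pos.le h2
    linarith
  linarith

/-- choose the height -/
lemma exists_height {δ K κ : ℝ} (hδ : 0 < δ) (hK : 0 ≤ K) (hκ : 0 < κ) :
    ∃ y0 : ℝ, 1 ≤ y0 ∧ ∀ y, y0 ≤ y → rexp (-π * y * δ) * K ≤ κ / 2 := by
  refine ⟨max 1 (2 * K / (κ * (π * δ))), le_max_left _ _, fun y hy => ?_⟩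
  have hy1 : 1 ≤ y := le_trans (le_max_left _ _) hy
  have hy2 : 2 * K / (κ * (π * δ)) ≤ y := le_trans (le_max_right _ _) hy
  have hpos : 0 < π * y * δ := by positivity
  have h1 : rexp (-π * y * δ) ≤ 1 / (π * y * δ) := by
    have h2 : π * y * δ + 1 ≤ rexp (π * y * δ) := Real.add_one_le_exp _
    have h3 : rexp (-π * y * δ) = 1 / rexp (π * y * δ) := by
      rw [one_div, ← Real.exp_neg]; congr 1; ring
    rw [h3]
    apply one_div_le_one_div_of_le hpos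
    linarith
  have h4 : 2 * K ≤ y * (κ * (π * δ)) := by
    have hden : 0 < κ * (π * δ) := by positivity
    rwa [div_le_iff₀ hden] at hy2
  calc rexp (-π * y * δ) * K ≤ 1 / (π * y * δ) * K := mul_le_mul_of_nonneg_right h1 hK
    _ = K / (π * y * δ) := by ring
    _ ≤ κ / 2 := by
        rw [div_le_div_iff₀ hpos two_pos]
        nlinarith

/-! ### the numerator -/

/-- `‖ϑ₁₁'(0;τ)‖ ≤ C e^{-π Im τ / 4}` for `Im τ ≥ 1`. -/
lemma exists_norm_thetaOdd'_le :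
    ∃ C : ℝ, 0 ≤ C ∧ ∀ τ : ℂ, 1 ≤ τ.im → ‖thetaOdd' τ‖ ≤ C * rexp (-π * τ.im / 4) := by
  set u : ℤ → ℝ := fun n => 2 * π * ((|n| : ℤ) : ℝ) *
    rexp (-π * (1 * (n : ℝ) ^ 2 - 2 * (1 / 2) * ((|n| : ℤ) : ℝ))) with hu
  have hus : Summable u := by
    have := (summable_pow_mul_jacobiTheta₂_term_bound (1 / 2) one_pos 1).mul_left (2 * π)
    refine this.congr (fun n => ?_)
    simp only [hu, pow_one]
    ring
  have hu0 : ∀ n, 0 ≤ u n := fun n => by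
    simp only [hu]
    have : (0 : ℝ) ≤ ((|n| : ℤ) : ℝ) := by exact_mod_cast abs_nonneg n
    positivity
  refine ⟨∑' n, u n, tsum_nonneg hu0, fun τ hτ => ?_⟩
  unfold thetaOdd'
  rw [norm_mul, Complex.norm_exp, mul_comm]
  have hre : (π * I * τ / 4 + π * I / 2 : ℂ).re = -π * τ.im / 4 := by
    simp only [add_re, mul_re, mul_im, ofReal_re, ofReal_im, Complex.I_re, Complex.I_im, div_ofNat_re]
    ring
  rw [hre]
  apply mul_le_mul_of_nonneg_right _ (Real.exp_pos _).le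
  have hterm : ∀ n : ℤ, ‖jacobiTheta₂'_term n (1 / 2 + τ / 2) τ‖ ≤ u n := by
    intro n
    rw [jacobiTheta₂'_term, norm_mul, norm_jacobiTheta₂_term]
    have h1 : ‖(2 * π * I * n : ℂ)‖ = 2 * π * ((|n| : ℤ) : ℝ) := by
      simp only [norm_mul, Complex.norm_two, norm_I, Complex.norm_of_nonneg pi_pos.le,
        norm_intCast, mul_one, Int.cast_abs]
    rw [h1]
    have hn0 : (0 : ℝ) ≤ ((|n| : ℤ) : ℝ) := by exact_mod_cast abs_nonneg n
    apply mul_le_mul_of_nonneg_left _ (by positivity)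
    rw [Real.exp_le_exp]
    have him : (1 / 2 + τ / 2 : ℂ).im = τ.im / 2 := by simp
    rw [him]
    have hn : (0 : ℝ) ≤ (n : ℝ) ^ 2 + n := by
      have : (0 : ℤ) ≤ n ^ 2 + n := by
        rcases le_or_gt 0 n with h | h
        · positivity
        · nlinarith
      exact_mod_cast this
    have habs : -(((|n| : ℤ) : ℝ)) ≤ (n : ℝ) := by
      rw [Int.cast_abs]; exact neg_abs_le _
    have h5 : 0 ≤ π * ((τ.im - 1) * ((n : ℝ) ^ 2 + n)) :=
      mul_nonneg pi_pos.le (mul_nonneg (by linarith) hn)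
    have h6 : 0 ≤ π * ((n : ℝ) + ((|n| : ℤ) : ℝ)) := mul_nonneg pi_pos.le (by linarith)
    nlinarith [h5, h6]
  have hsum : Summable (fun n : ℤ => ‖jacobiTheta₂'_term n (1 / 2 + τ / 2) τ‖) :=
    Summable.of_nonneg_of_le (fun _ => norm_nonneg _) hterm hus
  calc ‖jacobiTheta₂' (1 / 2 + τ / 2) τ‖
      ≤ ∑' n, ‖jacobiTheta₂'_term n (1 / 2 + τ / 2) τ‖ := norm_tsum_le_tsum_norm hsum
    _ ≤ ∑' n, u n := Summable.tsum_le_tsum hterm hsum hus

/-! ### the denominator -/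

/-- the `n`-th term of the series for `e^{πi b₁ z} ϑ₁₁(z;τ)`, `z = b₁ τ + b₂` -/
noncomputable def denTerm (b1 b2 : ℝ) (τ : ℂ) (n : ℤ) : ℂ :=
  cexp (π * I * b1 * ((b1 : ℂ) * τ + b2)) *
    cexp (π * I * τ / 4 + π * I * (((b1 : ℂ) * τ + b2) + 1 / 2)) *
    jacobiTheta₂_term n (((b1 : ℂ) * τ + b2) + 1 / 2 + τ / 2) τ

lemma norm_denTerm (b1 b2 : ℝ) (τ : ℂ) (n : ℤ) :
    ‖denTerm b1 b2 τ n‖ = rexp (-π * τ.im * ((n : ℝ) + b1 + 1 / 2) ^ 2) := by
  unfold denTerm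
  rw [norm_mul, norm_mul, Complex.norm_exp, Complex.norm_exp, norm_jacobiTheta₂_term,
    ← Real.exp_add, ← Real.exp_add]
  congr 1
  simp only [mul_re, mul_im, add_re, add_im, ofReal_re, ofReal_im, Complex.I_re, Complex.I_im, div_ofNat_re,
    div_ofNat_im, one_re, one_im]
  ring_nf

lemma summable_denTerm (b1 b2 : ℝ) {τ : ℂ} (hτ : 0 < τ.im) : Summable (denTerm b1 b2 τ) :=
  (hasSum_jacobiTheta₂_term _ hτ).summable.mul_left _

lemma den_eq_tsum (b1 b2 : ℝ) (τ : ℂ) :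
    cexp (π * I * b1 * ((b1 : ℂ) * τ + b2)) * thetaOdd ((b1 : ℂ) * τ + b2) τ =
      ∑' n : ℤ, denTerm b1 b2 τ n := by
  unfold thetaOdd jacobiTheta₂ denTerm
  rw [← mul_assoc, ← tsum_mul_left]

/-- lower bound, case `0 < b₁ < 1` -/
lemma den_lower_A {b1 : ℝ} (b2 : ℝ) (h0 : 0 < b1) (h1 : b1 < 1) :
    ∃ c : ℝ, 0 < c ∧ ∃ y0 : ℝ, 1 ≤ y0 ∧ ∀ τ : ℂ, y0 ≤ τ.im →
      c * rexp (-π * τ.im / 4) ≤
        ‖cexp (π * I * b1 * ((b1 : ℂ) * τ + b2)) * thetaOdd ((b1 : ℂ) * τ + b2) τ‖ := by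
  set β : ℝ := b1 - 1 / 2 with hβ
  have hβabs : |β| < 1 / 2 := by rw [abs_lt]; constructor <;> linarith
  set δ : ℝ := 1 - 2 * |β| with hδdef
  have hδ : 0 < δ := by linarith
  set u : ℤ → ℝ := fun n => rexp (-π * δ * (((n + 1 : ℤ) : ℝ) ^ 2 - 1)) with hu
  have hus : Summable u := (summable_gauss hδ).comp_injective (add_left_injective (1 : ℤ))
  have hu0 : ∀ n, 0 ≤ u n := fun n => (Real.exp_pos _).le
  obtain ⟨y0, hy0, hheight⟩ := exists_height hδ (tsum_nonneg hu0) one_pos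
  refine ⟨1 / 2, by norm_num, y0, hy0, fun τ hτ => ?_⟩
  have hy1 : 1 ≤ τ.im := le_trans hy0 hτ
  have hypos : 0 < τ.im := by linarith
  rw [den_eq_tsum]
  have hε : 0 ≤ rexp (-π * τ.im * β ^ 2) * rexp (-π * τ.im * δ) := by positivity
  have key := norm_tsum_ge_sub (summable_denTerm b1 b2 hypos) {-1} hus hu0 hε (fun n hn => ?_)
  · rw [Finset.sum_singleton, norm_denTerm] at key
    have e1 : ((-1 : ℤ) : ℝ) + b1 + 1 / 2 = β := by rw [hβ]; push_cast; ring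
    rw [e1] at key
    have hh := hheight τ.im hτ
    have hβ2 : β ^ 2 ≤ 1 / 4 := by
      have : β ^ 2 = |β| ^ 2 := (sq_abs β).symm
      rw [this]
      have h3 : 0 ≤ |β| := abs_nonneg β
      nlinarith
    have hexp : rexp (-π * τ.im / 4) ≤ rexp (-π * τ.im * β ^ 2) := by
      rw [Real.exp_le_exp]
      have h9 : 0 ≤ π * τ.im * (1 / 4 - β ^ 2) :=
        mul_nonneg (mul_nonneg pi_pos.le hypos.le) (by linarith)
      have h10 : -π * τ.im * β ^ 2 - -π * τ.im / 4 = π * τ.im * (1 / 4 - β ^ 2) := by ring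
      exact sub_nonneg.mp (h10 ▸ h9)
    have hE : 0 < rexp (-π * τ.im * β ^ 2) := Real.exp_pos _
    calc 1 / 2 * rexp (-π * τ.im / 4) ≤ 1 / 2 * rexp (-π * τ.im * β ^ 2) :=
          mul_le_mul_of_nonneg_left hexp (by norm_num)
      _ ≤ rexp (-π * τ.im * β ^ 2) -
          rexp (-π * τ.im * β ^ 2) * rexp (-π * τ.im * δ) * ∑' n, u n := by
          have : rexp (-π * τ.im * β ^ 2) * (rexp (-π * τ.im * δ) * ∑' n, u n) ≤
              rexp (-π * τ.im * β ^ 2) * (1 / 2) := mul_le_mul_of_nonneg_left hh hE.le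
          linarith only [this]
      _ ≤ _ := key
  · -- the tail terms
    have hn' : n ≠ -1 := by simpa using hn
    have hm : n + 1 ≠ 0 := fun h => hn' (by omega)
    rw [norm_denTerm]
    have hm1 := one_le_int_sq hm
    have e2 : ((n : ℝ) + b1 + 1 / 2) = ((n + 1 : ℤ) : ℝ) + β := by rw [hβ]; push_cast; ring
    set m : ℝ := ((n + 1 : ℤ) : ℝ) with hmdef
    have hineq : β ^ 2 + δ * m ^ 2 ≤ (m + β) ^ 2 := by
      have habsm : 1 ≤ |m| := by
        have := Int.one_le_abs hm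
        have h2 : ((1 : ℤ) : ℝ) ≤ ((|n + 1| : ℤ) : ℝ) := by exact_mod_cast this
        rw [Int.cast_abs, Int.cast_one] at h2
        exact h2
      have hmβ : -(|m| * |β|) ≤ m * β := by
        rw [← abs_mul]; exact neg_abs_le _
      have hsq : m ^ 2 = |m| ^ 2 := (sq_abs m).symm
      have hβ0 : 0 ≤ |β| := abs_nonneg β
      have hprod : 0 ≤ |β| * (|m| * (|m| - 1)) :=
        mul_nonneg hβ0 (mul_nonneg (by linarith) (by linarith))
      rw [hδdef]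
      nlinarith
    rw [e2]
    calc rexp (-π * τ.im * (m + β) ^ 2)
        ≤ rexp (-π * τ.im * (β ^ 2 + δ * m ^ 2)) := by
          rw [Real.exp_le_exp]
          have : 0 ≤ π * τ.im * ((m + β) ^ 2 - (β ^ 2 + δ * m ^ 2)) :=
            mul_nonneg (mul_nonneg pi_pos.le hypos.le) (by linarith)
          linarith
      _ = rexp (-π * τ.im * β ^ 2) * rexp (-π * τ.im * (δ * m ^ 2)) := by
          rw [← Real.exp_add]; congr 1; ring
      _ ≤ rexp (-π * τ.im * β ^ 2) *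
          (rexp (-π * τ.im * δ) * rexp (-π * δ * (m ^ 2 - 1))) :=
          mul_le_mul_of_nonneg_left (exp_gauss_le hy1 hδ.le hm) (Real.exp_pos _).le
      _ = rexp (-π * τ.im * β ^ 2) * rexp (-π * τ.im * δ) * u n := by
          simp only [hu]; ring

/-- lower bound, case `b₁ = 0`, `b₂ ∉ ℤ` -/
lemma den_lower_B {b2 : ℝ} (hb2 : ¬ ∃ n : ℤ, b2 = n) :
    ∃ c : ℝ, 0 < c ∧ ∃ y0 : ℝ, 1 ≤ y0 ∧ ∀ τ : ℂ, y0 ≤ τ.im →
      c * rexp (-π * τ.im / 4) ≤
        ‖cexp (π * I * (0 : ℝ) * (((0 : ℝ) : ℂ) * τ + b2)) *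
          thetaOdd (((0 : ℝ) : ℂ) * τ + b2) τ‖ := by
  set w : ℂ := 1 - cexp (-(2 * π * I * b2)) with hw
  have hwne : w ≠ 0 := by
    intro h0
    have h1 : cexp (-(2 * π * I * b2)) = 1 := by
      rw [hw] at h0
      linear_combination -h0
    rw [Complex.exp_eq_one_iff] at h1
    obtain ⟨n, hn⟩ := h1
    apply hb2
    refine ⟨-n, ?_⟩
    have h2 : (2 * π * I : ℂ) ≠ 0 := by simp [Real.pi_ne_zero, I_ne_zero]
    have h3 : (b2 : ℂ) = ((-n : ℤ) : ℂ) := by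
      apply mul_left_cancel₀ h2
      push_cast
      linear_combination -hn
    exact_mod_cast h3
  set κ : ℝ := ‖w‖ with hκdef
  have hκ : 0 < κ := norm_pos_iff.mpr hwne
  have hδ : (0 : ℝ) < 1 / 2 := by norm_num
  set u : ℤ → ℝ := fun n => rexp (-π * (1 / 2) * ((n : ℝ) ^ 2 - 1)) with hu
  have hus : Summable u := summable_gauss hδ
  have hu0 : ∀ n, 0 ≤ u n := fun n => (Real.exp_pos _).le
  obtain ⟨y0, hy0, hheight⟩ := exists_height hδ (tsum_nonneg hu0) hκ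
  refine ⟨κ / 2, by positivity, y0, hy0, fun τ hτ => ?_⟩
  have hy1 : 1 ≤ τ.im := le_trans hy0 hτ
  have hypos : 0 < τ.im := lt_of_lt_of_le one_pos hy1
  rw [den_eq_tsum]
  have hε : 0 ≤ rexp (-π * τ.im / 4) * rexp (-π * τ.im * (1 / 2)) := by positivity
  have key := norm_tsum_ge_sub (summable_denTerm 0 b2 hypos) {0, -1} hus hu0 hε (fun n hn => ?_)
  · have hsum : ∑ n ∈ ({0, -1} : Finset ℤ), denTerm 0 b2 τ n = denTerm 0 b2 τ 0 * w := by
      rw [Finset.sum_pair (by norm_num)]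
      have hterm : jacobiTheta₂_term (-1) (((0 : ℝ) : ℂ) * τ + b2 + 1 / 2 + τ / 2) τ =
          jacobiTheta₂_term 0 (((0 : ℝ) : ℂ) * τ + b2 + 1 / 2 + τ / 2) τ *
            (-cexp (-(2 * π * I * b2))) := by
        unfold jacobiTheta₂_term
        rw [neg_cexp_eq, ← Complex.exp_add]
        have : (2 * π * I * ((-1 : ℤ) : ℂ) * (((0 : ℝ) : ℂ) * τ + b2 + 1 / 2 + τ / 2) +
              π * I * ((-1 : ℤ) : ℂ) ^ 2 * τ) =
            ((2 * π * I * ((0 : ℤ) : ℂ) * (((0 : ℝ) : ℂ) * τ + b2 + 1 / 2 + τ / 2) +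
              π * I * ((0 : ℤ) : ℂ) ^ 2 * τ) + (π * I + -(2 * π * I * b2))) +
            ((-1 : ℤ) : ℂ) * (2 * π * I) := by
          push_cast
          ring
        rw [this, Complex.exp_add _ (((-1 : ℤ) : ℂ) * (2 * π * I)), exp_int_mul_two_pi_mul_I,
          mul_one]
      have h1 : denTerm 0 b2 τ (-1) = denTerm 0 b2 τ 0 * (-cexp (-(2 * π * I * b2))) := by
        unfold denTerm
        rw [hterm]
        ring
      rw [h1, hw]
      ring
    rw [hsum, norm_mul, norm_denTerm] at key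
    have e1 : (((0 : ℤ) : ℝ) + 0 + 1 / 2) ^ 2 = 1 / 4 := by norm_num
    have e2 : -π * τ.im * (((0 : ℤ) : ℝ) + 0 + 1 / 2) ^ 2 = -π * τ.im / 4 := by rw [e1]; ring
    rw [e2] at key
    have hh := hheight τ.im hτ
    have hE : 0 < rexp (-π * τ.im / 4) := Real.exp_pos _
    calc κ / 2 * rexp (-π * τ.im / 4)
        ≤ rexp (-π * τ.im / 4) * κ -
          rexp (-π * τ.im / 4) * rexp (-π * τ.im * (1 / 2)) * ∑' n, u n := by
          have : rexp (-π * τ.im / 4) * (rexp (-π * τ.im * (1 / 2)) * ∑' n, u n) ≤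
              rexp (-π * τ.im / 4) * (κ / 2) := mul_le_mul_of_nonneg_left hh hE.le
          linarith only [this]
      _ ≤ _ := key
  · -- the tail terms
    have hn0 : n ≠ 0 := by
      intro h; apply hn; simp [h]
    have hn1 : n ≠ -1 := by
      intro h; apply hn; simp [h]
    rw [norm_denTerm]
    have hcases : 1 ≤ n ∨ n ≤ -2 := by omega
    have hineq : 1 / 4 + 1 / 2 * (n : ℝ) ^ 2 ≤ ((n : ℝ) + 0 + 1 / 2) ^ 2 := by
      rcases hcases with h | h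
      · have : (1 : ℝ) ≤ n := by exact_mod_cast h
        nlinarith
      · have : (n : ℝ) ≤ -2 := by exact_mod_cast h
        nlinarith
    calc rexp (-π * τ.im * ((n : ℝ) + 0 + 1 / 2) ^ 2)
        ≤ rexp (-π * τ.im * (1 / 4 + 1 / 2 * (n : ℝ) ^ 2)) := by
          rw [Real.exp_le_exp]
          have : 0 ≤ π * τ.im * (((n : ℝ) + 0 + 1 / 2) ^ 2 - (1 / 4 + 1 / 2 * (n : ℝ) ^ 2)) :=
            mul_nonneg (mul_nonneg pi_pos.le hypos.le) (by linarith only [hineq])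
          linarith only [this]
      _ = rexp (-π * τ.im / 4) * rexp (-π * τ.im * (1 / 2 * (n : ℝ) ^ 2)) := by
          rw [← Real.exp_add]; congr 1; ring
      _ ≤ rexp (-π * τ.im / 4) *
          (rexp (-π * τ.im * (1 / 2)) * rexp (-π * (1 / 2) * ((n : ℝ) ^ 2 - 1))) :=
          mul_le_mul_of_nonneg_left (exp_gauss_le hy1 hδ.le hn0) (Real.exp_pos _).le
      _ = rexp (-π * τ.im / 4) * rexp (-π * τ.im * (1 / 2)) * u n := by
          simp only [hu]; ring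

/-! ### boundedness -/

lemma isBoundedAtImInfty_kleinInv_aux {b1 b2 : ℝ} (h0 : 0 ≤ b1) (h1 : b1 < 1)
    (hb : ¬ ∃ m n : ℤ, b1 = m ∧ b2 = n) :
    IsBoundedAtImInfty (kleinInv ((b1 : ℂ), (b2 : ℂ))) := by
  obtain ⟨C, hC0, hC⟩ := exists_norm_thetaOdd'_le
  have hden : ∃ c : ℝ, 0 < c ∧ ∃ y0 : ℝ, 1 ≤ y0 ∧ ∀ τ : ℂ, y0 ≤ τ.im →
      c * rexp (-π * τ.im / 4) ≤
        ‖cexp (π * I * b1 * ((b1 : ℂ) * τ + b2)) * thetaOdd ((b1 : ℂ) * τ + b2) τ‖ := by
    rcases h0.eq_or_lt with h | h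
    · subst h
      apply den_lower_B
      rintro ⟨n, hn⟩
      exact hb ⟨0, n, by simp, hn⟩
    · exact den_lower_A b2 h h1
  obtain ⟨c, hc, y0, hy0, hlow⟩ := hden
  rw [isBoundedAtImInfty_iff]
  refine ⟨C / c, y0, fun τ hτ => ?_⟩
  unfold kleinInv kleinInvC
  simp only
  have hτ' : y0 ≤ (τ : ℂ).im := hτ
  have hτ1 : 1 ≤ (τ : ℂ).im := le_trans hy0 hτ'
  rw [norm_div]
  have hE : 0 < rexp (-π * (τ : ℂ).im / 4) := Real.exp_pos _
  have hnum := hC (τ : ℂ) hτ1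
  have hd := hlow (τ : ℂ) hτ'
  have hdpos : 0 < c * rexp (-π * (τ : ℂ).im / 4) := mul_pos hc hE
  calc ‖thetaOdd' (τ : ℂ)‖ / ‖cexp (π * I * b1 * ((b1 : ℂ) * τ + b2)) *
        thetaOdd ((b1 : ℂ) * τ + b2) τ‖
      ≤ (C * rexp (-π * (τ : ℂ).im / 4)) / (c * rexp (-π * (τ : ℂ).im / 4)) :=
        div_le_div₀ (by positivity) hnum hdpos hd
    _ = C / c := by
        field_simp

/-- **Boundedness at `i∞`** of every inverse Klein form with real characteristics `b ∉ ℤ²`. -/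
theorem isBoundedAtImInfty_kleinInv {b1 b2 : ℝ} (hb : ¬ ∃ m n : ℤ, b1 = m ∧ b2 = n) :
    IsBoundedAtImInfty (kleinInv ((b1 : ℂ), (b2 : ℂ))) := by
  set m : ℤ := ⌊b1⌋ with hm
  set b1' : ℝ := b1 - m with hb1'
  have h0 : 0 ≤ b1' := by rw [hb1']; linarith [Int.floor_le b1]
  have h1 : b1' < 1 := by rw [hb1']; linarith [Int.lt_floor_add_one b1]
  have hb' : ¬ ∃ m' n : ℤ, b1' = m' ∧ b2 = n := by
    rintro ⟨m', n, h2, h3⟩
    apply hb
    refine ⟨m' + m, n, ?_, h3⟩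
    rw [hb1'] at h2
    push_cast
    linarith
  have haux := isBoundedAtImInfty_kleinInv_aux h0 h1 hb'
  rw [isBoundedAtImInfty_iff] at haux ⊢
  obtain ⟨M, A, hMA⟩ := haux
  refine ⟨M, A, fun τ hτ => ?_⟩
  have hshift := kleinInvC_add_int ((b1' : ℂ), (b2 : ℂ)) m 0 τ
  simp only [Int.cast_zero, add_zero, mul_zero] at hshift
  have hb1 : ((b1' : ℂ) + (m : ℂ)) = (b1 : ℂ) := by rw [hb1']; push_cast; ring
  rw [hb1] at hshift
  unfold kleinInv
  rw [hshift, norm_mul]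
  have hnorm : ‖cexp (-(π * I * (0 - (b2 : ℂ) * m - m)))‖ = 1 := by
    have : -(π * I * (0 - (b2 : ℂ) * m - m)) = ((π * (b2 * m + m) : ℝ) : ℂ) * I := by
      push_cast; ring
    rw [this, Complex.norm_exp_ofReal_mul_I]
  have := hMA τ hτ
  unfold kleinInv at this
  rw [hnorm, one_mul]
  exact this

end Fermat.Agent.DS.Klein
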