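/-
S48 / (N5)-KLEIN (helper21): the inverse Klein form `kleinInv (0, 2s/N)` (`N ∤ 2s`) as a Mathlib
`ModularForm (Gamma1 M) 1` for every `M` with `N² ∣ M`.  Mathlib only.
-/
import Mathlib
import Fermat.Agent.DS.Klein.KleinBdd

set_option autoImplicit false

namespace Fermat.Agent.DS.Klein

open Complex Real CongruenceSubgroup
open UpperHalfPlane hiding I
open scoped MatrixGroups ModularForm Manifold

/-- the characteristic `(0, 2s/N)` -/
noncomputable def kchar (N : ℕ) (s : ℤ) : ℂ × ℂ := (((0 : ℝ) : ℂ), (((2 * s / N : ℝ)) : ℂ))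

lemma kchar_eq (N : ℕ) (s : ℤ) : kchar N s = ((0 : ℂ), (2 * s / N : ℂ)) := by
  unfold kchar
  push_cast
  rfl

/-- `(2s/N)·(c, d) ∉ ℤ²` for coprime `(c,d)` when `N ∤ 2s`. -/
lemma not_int_pair {N : ℕ} (hN : N ≠ 0) {s : ℤ} (hs : ¬ (N : ℤ) ∣ 2 * s) (γ : SL(2, ℤ)) :
    ¬ ∃ m n : ℤ, ((2 * s / N : ℝ) * (γ 1 0 : ℝ)) = m ∧ ((2 * s / N : ℝ) * (γ 1 1 : ℝ)) = n := by
  rintro ⟨m, n, h1, h2⟩
  apply hs
  have hNR : (N : ℝ) ≠ 0 := by exact_mod_cast hN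
  have e1 : (2 * s * γ 1 0 : ℤ) = m * N := by
    have : ((2 * s * γ 1 0 : ℤ) : ℝ) = ((m * N : ℤ) : ℝ) := by
      push_cast
      field_simp at h1
      linarith
    exact_mod_cast this
  have e2 : (2 * s * γ 1 1 : ℤ) = n * N := by
    have : ((2 * s * γ 1 1 : ℤ) : ℝ) = ((n * N : ℤ) : ℝ) := by
      push_cast
      field_simp at h2
      linarith
    exact_mod_cast this
  have hdet : γ 0 0 * γ 1 1 - γ 0 1 * γ 1 0 = 1 := by
    have := γ.det_coe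
    rw [Matrix.det_fin_two] at this
    exact this
  refine ⟨γ 0 0 * n - γ 0 1 * m, ?_⟩
  calc 2 * s = 2 * s * (γ 0 0 * γ 1 1 - γ 0 1 * γ 1 0) := by rw [hdet, mul_one]
    _ = γ 0 0 * (2 * s * γ 1 1) - γ 0 1 * (2 * s * γ 1 0) := by ring
    _ = _ := by rw [e1, e2]; ring

lemma rowAct_kchar (N : ℕ) (s : ℤ) (γ : SL(2, ℤ)) :
    rowAct (kchar N s) γ =
      ((((2 * s / N : ℝ) * (γ 1 0 : ℝ) : ℝ) : ℂ), (((2 * s / N : ℝ) * (γ 1 1 : ℝ) : ℝ) : ℂ)) := by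
  unfold rowAct kchar
  ext <;> simp

/-- **The inverse Klein form as a weight-one modular form on `Γ₁(M)`, `N² ∣ M`.** -/
noncomputable def kleinMF {N M : ℕ} [NeZero M] (hN : N ≠ 0) (hM : N ^ 2 ∣ M) {s : ℤ}
    (hs : ¬ (N : ℤ) ∣ 2 * s) : ModularForm (Gamma1 M) 1 where
  toFun := kleinInv (kchar N s)
  slash_action_eq' := by
    intro γ hγ
    obtain ⟨γ', hγ', rfl⟩ := Subgroup.mem_map.mp hγ
    rw [Gamma1_mem] at hγ'
    obtain ⟨-, h11, h10⟩ := hγ'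
    have hc : ((N : ℤ) ^ 2) ∣ γ' 1 0 := by
      have h1 : (M : ℤ) ∣ γ' 1 0 := (ZMod.intCast_zmod_eq_zero_iff_dvd _ _).mp h10
      have h2 : ((N : ℤ) ^ 2) ∣ (M : ℤ) := by exact_mod_cast hM
      exact dvd_trans h2 h1
    have hd : (N : ℤ) ∣ γ' 1 1 - 1 := by
      have h1 : (M : ℤ) ∣ γ' 1 1 - 1 := by
        rw [← ZMod.intCast_zmod_eq_zero_iff_dvd]
        push_cast
        rw [h11, sub_self]
      have h2 : (N : ℤ) ∣ (M : ℤ) := by
        have : N ∣ M := dvd_trans (dvd_pow_self N two_ne_zero) hM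
        exact_mod_cast this
      exact dvd_trans h2 h1
    have := kleinInv_slash_of_mem hN s γ' hc hd
    rw [← kchar_eq] at this
    exact this
  holo' := by
    apply mdifferentiable_kleinInv
    rintro ⟨m, n, -, h2⟩
    apply not_int_pair hN hs 1
    refine ⟨0, n, by simp, ?_⟩
    simpa using h2
  bdd_at_cusps' {c} hc := by
    rw [Subgroup.IsArithmetic.isCusp_iff_isCusp_SL2Z] at hc
    rw [OnePoint.isBoundedAt_iff_forall_SL2Z hc]
    intro γ _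
    show IsBoundedAtImInfty (kleinInv (kchar N s) ∣[(1 : ℤ)] γ)
    rw [kleinInv_slash, rowAct_kchar]
    exact isBoundedAtImInfty_kleinInv (not_int_pair hN hs γ)

@[simp] lemma kleinMF_apply {N M : ℕ} [NeZero M] (hN : N ≠ 0) (hM : N ^ 2 ∣ M) {s : ℤ}
    (hs : ¬ (N : ℤ) ∣ 2 * s) (τ : ℍ) :
    kleinMF hN hM hs τ = kleinInv (kchar N s) τ := rfl

end Fermat.Agent.DS.Klein
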