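/-
S48 / (N5)-KLEIN (helper21): `q`-expansion of the normalised inverse Klein form
`G = ((ξ - ξ⁻¹)/(2πi)) · kleinInv (0, 2s/N)`, `ξ = e^{2πi s/N}`: it is the quotient `J / D` of two
explicit theta series, hence lies in `1 + (1 - ξ) ℤ[ξ]⟦q⟧`.  Mathlib only.
-/
import Mathlib
import Fermat.Agent.DS.Klein.KleinMF

set_option autoImplicit false

namespace Fermat.Agent.DS.Klein

open Complex Real CongruenceSubgroup Function
open UpperHalfPlane hiding I
open scoped MatrixGroups ModularForm Manifold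

/-! ### power series division and congruences -/

/-- If `P * B = A`, `B` has coefficients in the subring `R` and constant coefficient `1`, and
`A - B` has coefficients in `R·ϖ`, then `P - 1` has coefficients in `R·ϖ`. -/
lemma coeff_sub_one_mem_of_mul_eq {S : Type*} [CommRing S] (R : Subring S) (ϖ : S)
    {P A B : PowerSeries S} (h : P * B = A) (hB0 : PowerSeries.coeff 0 B = 1)
    (hB : ∀ n, PowerSeries.coeff n B ∈ R)
    (hAB : ∀ n, PowerSeries.coeff n A - PowerSeries.coeff n B ∈ Submodule.span R {ϖ}) :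
    ∀ n, PowerSeries.coeff n (P - 1) ∈ Submodule.span R {ϖ} := by
  have hH : (P - 1) * B = A - B := by rw [sub_mul, h, one_mul]
  intro n
  induction n using Nat.strong_induction_on with
  | _ n ih =>
    have h1 := congrArg (PowerSeries.coeff n) hH
    rw [PowerSeries.coeff_mul, Finset.Nat.sum_antidiagonal_eq_sum_range_succ_mk,
      Finset.sum_range_succ, Nat.sub_self, hB0, mul_one] at h1
    have h1' : PowerSeries.coeff n (A - B) = PowerSeries.coeff n A - PowerSeries.coeff n B :=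
      map_sub _ _ _
    rw [h1'] at h1
    have h2 : PowerSeries.coeff n (P - 1) =
        (PowerSeries.coeff n A - PowerSeries.coeff n B) -
          ∑ k ∈ Finset.range n, PowerSeries.coeff k (P - 1) * PowerSeries.coeff (n - k) B := by
      linear_combination h1
    rw [h2]
    refine Submodule.sub_mem _ (hAB n) (Submodule.sum_mem _ (fun k hk => ?_))
    have hk' : k < n := Finset.mem_range.mp hk
    have h3 := Submodule.smul_mem _ (⟨_, hB (n - k)⟩ : R) (ih k hk')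
    rwa [Subring.smul_def, smul_eq_mul, mul_comm] at h3

/-! ### triangular numbers -/

/-- triangular numbers -/
def tri (n : ℕ) : ℕ := n * (n + 1) / 2

lemma two_mul_tri (n : ℕ) : 2 * tri n = n * (n + 1) := by
  unfold tri
  exact Nat.mul_div_cancel' (Nat.even_mul_succ_self n).two_dvd

lemma tri_strictMono : StrictMono tri := by
  apply strictMono_nat_of_lt_succ
  intro n
  have h1 := two_mul_tri n
  have h2 := two_mul_tri (n + 1)
  nlinarith

lemma tri_injective : Injective tri := tri_strictMono.injective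

@[simp] lemma tri_zero : tri 0 = 0 := by simp [tri]

/-! ### the theta series over `ℕ` -/

lemma cexp_pi_I_div_two : cexp (π * I / 2) = I := by
  rw [show (π * I / 2 : ℂ) = (π / 2 : ℝ) * I by push_cast; ring, Complex.exp_mul_I]
  simp

lemma cexp_pi_I_nat (n : ℕ) : cexp (π * I * n) = (-1) ^ n := by
  rw [mul_comm, Complex.exp_nat_mul, Complex.exp_pi_mul_I]

lemma cexp_neg_pi_I_nat (n : ℕ) : cexp (-(π * I * n)) = (-1) ^ n := by
  rw [Complex.exp_neg, cexp_pi_I_nat, ← inv_pow]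
  norm_num

lemma qpow_tri (τ : ℂ) (n : ℕ) :
    cexp (2 * π * I * τ) ^ tri n = cexp (π * I * ((n : ℂ) * (n + 1)) * τ) := by
  rw [← Complex.exp_nat_mul]
  congr 1
  have h : ((2 * tri n : ℕ) : ℂ) = ((n * (n + 1) : ℕ) : ℂ) := by rw [two_mul_tri]
  push_cast at h
  linear_combination (π * I * τ) * h

/-- `ϑ₁₁'(0;τ) = -2π e^{πiτ/4} ∑_{n ≥ 0} (-1)^n (2n+1) Q^{n(n+1)/2}`, `Q = e^{2πiτ}`. -/
lemma hasSum_thetaOdd' {τ : ℂ} (hτ : 0 < τ.im) :
    HasSum (fun n : ℕ => ((-1) ^ n * (2 * n + 1) : ℂ) * cexp (2 * π * I * τ) ^ tri n)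
      (thetaOdd' τ / (-2 * π * cexp (π * I * τ / 4))) := by
  have h := (hasSum_jacobiTheta₂'_term (1 / 2 + τ / 2) hτ).nat_add_neg_add_one
  have hterm : ∀ n : ℕ, jacobiTheta₂'_term (n : ℤ) (1 / 2 + τ / 2) τ +
      jacobiTheta₂'_term (-((n : ℤ) + 1)) (1 / 2 + τ / 2) τ =
      (2 * π * I) * (((-1) ^ n * (2 * n + 1) : ℂ) * cexp (2 * π * I * τ) ^ tri n) := by
    intro n
    unfold jacobiTheta₂'_term jacobiTheta₂_term
    have e1 : (2 * π * I * ((n : ℤ) : ℂ) * (1 / 2 + τ / 2) + π * I * ((n : ℤ) : ℂ) ^ 2 * τ) =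
        π * I * n + π * I * ((n : ℂ) * (n + 1)) * τ := by push_cast; ring
    have e2 : (2 * π * I * ((-((n : ℤ) + 1) : ℤ) : ℂ) * (1 / 2 + τ / 2) +
        π * I * ((-((n : ℤ) + 1) : ℤ) : ℂ) ^ 2 * τ) =
        -(π * I * ((n + 1 : ℕ) : ℂ)) + π * I * ((n : ℂ) * (n + 1)) * τ := by push_cast; ring
    rw [e1, e2, Complex.exp_add, Complex.exp_add, cexp_pi_I_nat, cexp_neg_pi_I_nat, ← qpow_tri]
    push_cast
    ring
  rw [funext hterm] at h
  have h2pi : (2 * π * I : ℂ) ≠ 0 := by simp [Real.pi_ne_zero, I_ne_zero]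
  have h3 := h.mul_left (2 * π * I : ℂ)⁻¹
  have h4 : ∀ n : ℕ, (2 * π * I : ℂ)⁻¹ * ((2 * π * I) *
      (((-1) ^ n * (2 * n + 1) : ℂ) * cexp (2 * π * I * τ) ^ tri n)) =
      ((-1) ^ n * (2 * n + 1) : ℂ) * cexp (2 * π * I * τ) ^ tri n := fun n => by
    rw [← mul_assoc, inv_mul_cancel₀ h2pi, one_mul]
  rw [funext h4] at h3
  have hval : thetaOdd' τ / (-2 * π * cexp (π * I * τ / 4)) =
      (2 * π * I : ℂ)⁻¹ * jacobiTheta₂' (1 / 2 + τ / 2) τ := by
    unfold thetaOdd'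
    rw [Complex.exp_add, cexp_pi_I_div_two]
    have hE : cexp (π * I * τ / 4) ≠ 0 := Complex.exp_ne_zero _
    have hpi : (π : ℂ) ≠ 0 := by exact_mod_cast Real.pi_ne_zero
    field_simp
    rw [I_sq]
    ring
  rw [hval]
  exact h3

/-- `ϑ₁₁(z;τ) = i e^{πiτ/4} ∑_{n ≥ 0} (-1)^n (v^{2n+1} - v^{-(2n+1)}) Q^{n(n+1)/2}`, `v = e^{πiz}`. -/
lemma hasSum_thetaOdd (z : ℂ) {τ : ℂ} (hτ : 0 < τ.im) :
    HasSum (fun n : ℕ => ((-1) ^ n * (cexp (π * I * z) ^ (2 * n + 1) -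
        cexp (-(π * I * z)) ^ (2 * n + 1)) : ℂ) * cexp (2 * π * I * τ) ^ tri n)
      (thetaOdd z τ / (I * cexp (π * I * τ / 4))) := by
  set v := cexp (π * I * z) with hv
  set w := cexp (-(π * I * z)) with hw
  have hvw : v * w = 1 := by
    rw [hv, hw, ← Complex.exp_add, add_neg_cancel, Complex.exp_zero]
  have h := (hasSum_jacobiTheta₂_term (z + 1 / 2 + τ / 2) hτ).nat_add_neg_add_one
  have hterm : ∀ n : ℕ, jacobiTheta₂_term (n : ℤ) (z + 1 / 2 + τ / 2) τ +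
      jacobiTheta₂_term (-((n : ℤ) + 1)) (z + 1 / 2 + τ / 2) τ =
      ((-1) ^ n * (v ^ (2 * n) - w ^ (2 * n + 2)) : ℂ) * cexp (2 * π * I * τ) ^ tri n := by
    intro n
    unfold jacobiTheta₂_term
    have e1 : (2 * π * I * ((n : ℤ) : ℂ) * (z + 1 / 2 + τ / 2) + π * I * ((n : ℤ) : ℂ) ^ 2 * τ) =
        ((2 * n : ℕ) : ℂ) * (π * I * z) + (π * I * n + π * I * ((n : ℂ) * (n + 1)) * τ) := by
      push_cast; ring
    have e2 : (2 * π * I * ((-((n : ℤ) + 1) : ℤ) : ℂ) * (z + 1 / 2 + τ / 2) +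
        π * I * ((-((n : ℤ) + 1) : ℤ) : ℂ) ^ 2 * τ) =
        ((2 * n + 2 : ℕ) : ℂ) * (-(π * I * z)) +
          (-(π * I * ((n + 1 : ℕ) : ℂ)) + π * I * ((n : ℂ) * (n + 1)) * τ) := by
      push_cast; ring
    rw [e1, e2, Complex.exp_add, Complex.exp_add, Complex.exp_add, Complex.exp_add,
      Complex.exp_nat_mul, Complex.exp_nat_mul, cexp_pi_I_nat, cexp_neg_pi_I_nat, ← qpow_tri]
    ring
  rw [funext hterm] at h
  have h3 := h.mul_left v
  have h4 : ∀ n : ℕ, v * (((-1) ^ n * (v ^ (2 * n) - w ^ (2 * n + 2)) : ℂ) *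
      cexp (2 * π * I * τ) ^ tri n) =
      ((-1) ^ n * (v ^ (2 * n + 1) - w ^ (2 * n + 1)) : ℂ) * cexp (2 * π * I * τ) ^ tri n :=
    fun n => by
      have : v * w ^ (2 * n + 2) = w ^ (2 * n + 1) := by
        rw [pow_succ w (2 * n + 1), ← mul_assoc, mul_comm v, mul_assoc, hvw, mul_one]
      calc v * (((-1) ^ n * (v ^ (2 * n) - w ^ (2 * n + 2)) : ℂ) * cexp (2 * π * I * τ) ^ tri n)
          = ((-1) ^ n * (v ^ (2 * n) * v - v * w ^ (2 * n + 2)) : ℂ) *
              cexp (2 * π * I * τ) ^ tri n := by ring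
        _ = _ := by rw [this, ← pow_succ]
  rw [funext h4] at h3
  have hval : thetaOdd z τ / (I * cexp (π * I * τ / 4)) =
      v * jacobiTheta₂ (z + 1 / 2 + τ / 2) τ := by
    unfold thetaOdd
    have hE : cexp (π * I * τ / 4) ≠ 0 := Complex.exp_ne_zero _
    have : cexp (π * I * τ / 4 + π * I * (z + 1 / 2)) = cexp (π * I * τ / 4) * (v * I) := by
      have e : π * I * τ / 4 + π * I * (z + 1 / 2) = π * I * τ / 4 + (π * I * z + π * I / 2) := by
        ring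
      rw [e, Complex.exp_add, Complex.exp_add, cexp_pi_I_div_two]
    rw [this]
    field_simp
  rw [hval]
  exact h3

/-! ### the coefficients of the denominator -/

/-- `dcoef v n = v^{-2n} + v^{-2n+2} + ⋯ + v^{2n}` -/
noncomputable def dcoef (v : ℂ) (n : ℕ) : ℂ :=
  (v⁻¹) ^ (2 * n) * ∑ j ∈ Finset.range (2 * n + 1), (v ^ 2) ^ j

lemma sub_inv_mul_dcoef {v : ℂ} (hv : v ≠ 0) (n : ℕ) :
    (v - v⁻¹) * dcoef v n = v ^ (2 * n + 1) - (v⁻¹) ^ (2 * n + 1) := by
  unfold dcoef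
  have h := mul_geom_sum (v ^ 2) (2 * n + 1)
  have h1 : (v - v⁻¹) = v⁻¹ * (v ^ 2 - 1) := by field_simp
  have h2 : (v⁻¹) ^ (2 * n + 1) * (v ^ 2) ^ (2 * n + 1) = v ^ (2 * n + 1) := by
    rw [← mul_pow]
    congr 1
    field_simp
  calc (v - v⁻¹) * ((v⁻¹) ^ (2 * n) * ∑ j ∈ Finset.range (2 * n + 1), (v ^ 2) ^ j)
      = (v⁻¹) ^ (2 * n + 1) * ((v ^ 2 - 1) * ∑ j ∈ Finset.range (2 * n + 1), (v ^ 2) ^ j) := by
        rw [h1]; ring
    _ = (v⁻¹) ^ (2 * n + 1) * ((v ^ 2) ^ (2 * n + 1) - 1) := by rw [h]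
    _ = _ := by rw [mul_sub, h2, mul_one]

@[simp] lemma dcoef_zero (v : ℂ) : dcoef v 0 = 1 := by
  simp [dcoef]

/-! ### generalities on `q`-expansions of functions given by a `q`-series -/

lemma hasSum_extend_tri {a : ℕ → ℂ} {Q s : ℂ} (h : HasSum (fun n => a n * Q ^ tri n) s) :
    HasSum (fun m => (extend tri a 0) m • Q ^ m) s := by
  rw [← tri_injective.hasSum_iff (f := fun m => (extend tri a 0) m • Q ^ m)]
  · have : ((fun m => (extend tri a 0) m • Q ^ m) ∘ tri) = fun n => a n * Q ^ tri n := by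
      funext n
      simp [tri_injective.extend_apply]
    rw [this]
    exact h
  · intro m hm
    have hm' : ¬ ∃ n, tri n = m := fun ⟨n, hn⟩ => hm ⟨n, hn⟩
    simp [extend_apply' _ _ _ hm']

lemma qParam_one_add_one (z : ℂ) : Periodic.qParam 1 (z + 1) = Periodic.qParam 1 z := by
  unfold Periodic.qParam
  have : 2 * π * I * (z + 1) / ((1 : ℝ) : ℂ) = 2 * π * I * z / ((1 : ℝ) : ℂ) + 2 * π * I := by
    push_cast; ring
  rw [this, Complex.exp_add, Complex.exp_two_pi_mul_I, mul_one]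

lemma periodic_of_hasSum_qParam {f : ℍ → ℂ} {c : ℕ → ℂ}
    (hf : ∀ τ : ℍ, HasSum (fun m => c m • Periodic.qParam 1 τ ^ m) (f τ)) :
    Periodic (f ∘ ofComplex) 1 := by
  intro z
  by_cases hz : 0 < z.im
  · have hz1 : 0 < (z + 1).im := by simpa using hz
    simp only [Function.comp_apply, ofComplex_apply_of_im_pos hz, ofComplex_apply_of_im_pos hz1]
    have h1 := hf ⟨z + 1, hz1⟩
    have h2 := hf ⟨z, hz⟩
    rw [qParam_one_add_one] at h1
    exact h1.unique h2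
  · have hz' : z.im ≤ 0 := not_lt.mp hz
    have hz1 : (z + 1).im ≤ 0 := by simpa using hz'
    simp only [Function.comp_apply]
    rw [ofComplex_apply_eq_of_im_nonpos hz1 hz']

lemma mdiff_of_differentiableAt {g : ℂ → ℂ}
    (hg : ∀ z : ℂ, 0 < z.im → DifferentiableAt ℂ g z) : MDiff (fun τ : ℍ => g τ) := by
  rw [UpperHalfPlane.mdifferentiable_iff]
  intro τ hτ
  refine (hg τ hτ).differentiableWithinAt.congr (fun t ht => ?_) ?_
  · simp only [Function.comp_apply, ofComplex_apply_of_im_pos ht, coe_mk]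
  · simp only [Function.comp_apply, ofComplex_apply_of_im_pos hτ, coe_mk]

lemma analyticAt_cusp_of_hasSum {f : ℍ → ℂ} {c : ℕ → ℂ}
    (hf : ∀ τ : ℍ, HasSum (fun m => c m • Periodic.qParam 1 τ ^ m) (f τ)) (hdiff : MDiff f) :
    AnalyticAt ℂ (cuspFunction 1 f) 0 :=
  analyticAt_cuspFunction_zero one_pos (periodic_of_hasSum_qParam hf) hdiff
    (isBoundedAtImInfty_of_hasSum_qExpansion one_pos hf)

lemma qExpansion_coeff_unique_fun {f : ℍ → ℂ} {c : ℕ → ℂ}
    (hfan : AnalyticAt ℂ (cuspFunction 1 f) 0)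
    (hf : ∀ τ : ℍ, HasSum (fun m ↦ c m • Periodic.qParam 1 τ ^ m) (f τ)) (m : ℕ) :
    (qExpansion 1 f).coeff m = c m := by
  have h1 := (hasFPowerSeriesOnBall_cuspFunction one_pos hfan hf).hasFPowerSeriesAt
  have h2 := hfan.hasFPowerSeriesAt
  have h3 := h1.eq_formalMultilinearSeries h2
  have h4 := congr_arg (FormalMultilinearSeries.coeff · m) h3
  simp only [FormalMultilinearSeries.coeff_ofScalars] at h4
  rw [qExpansion_coeff, h4]
  ring

lemma qParam_one_eq (τ : ℂ) : Periodic.qParam 1 τ = cexp (2 * π * I * τ) := by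
  unfold Periodic.qParam
  congr 1
  push_cast
  ring

/-! ### the two theta series as functions on `ℍ` -/

/-- `J(τ) = ∑_{n ≥ 0} (-1)^n (2n+1) q^{n(n+1)/2}` -/
noncomputable def thetaJ (τ : ℍ) : ℂ := thetaOdd' τ / (-2 * π * cexp (π * I * τ / 4))

/-- coefficients of `J` -/
noncomputable def coeffJ : ℕ → ℂ := extend tri (fun n => ((-1) ^ n * (2 * n + 1) : ℂ)) 0

lemma hasSum_thetaJ (τ : ℍ) :
    HasSum (fun m => coeffJ m • Periodic.qParam 1 τ ^ m) (thetaJ τ) := by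
  rw [qParam_one_eq]
  exact hasSum_extend_tri (hasSum_thetaOdd' τ.im_pos)

lemma mdiff_thetaJ : MDiff thetaJ := by
  apply mdiff_of_differentiableAt (g := fun z => thetaOdd' z / (-2 * π * cexp (π * I * z / 4)))
  intro z hz
  refine DifferentiableAt.div (differentiableAt_thetaOdd' hz) (by fun_prop) ?_
  have hpi : (π : ℂ) ≠ 0 := by exact_mod_cast Real.pi_ne_zero
  exact mul_ne_zero (mul_ne_zero (by norm_num) hpi) (Complex.exp_ne_zero _)

/-- `D_v(τ) = ∑_{n ≥ 0} (-1)^n (v^{-2n} + ⋯ + v^{2n}) q^{n(n+1)/2}`, `v = e^{πiz}` -/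
noncomputable def thetaD (z : ℂ) (τ : ℍ) : ℂ :=
  thetaOdd z τ / (I * cexp (π * I * τ / 4)) / (cexp (π * I * z) - (cexp (π * I * z))⁻¹)

/-- coefficients of `D_v` -/
noncomputable def coeffD (v : ℂ) : ℕ → ℂ := extend tri (fun n => ((-1) ^ n * dcoef v n : ℂ)) 0

lemma hasSum_thetaD (z : ℂ) (hz : cexp (π * I * z) - (cexp (π * I * z))⁻¹ ≠ 0) (τ : ℍ) :
    HasSum (fun m => coeffD (cexp (π * I * z)) m • Periodic.qParam 1 τ ^ m) (thetaD z τ) := by
  rw [qParam_one_eq]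
  apply hasSum_extend_tri
  have h := (hasSum_thetaOdd z τ.im_pos).div_const (cexp (π * I * z) - (cexp (π * I * z))⁻¹)
  have hterm : ∀ n : ℕ, ((-1) ^ n * (cexp (π * I * z) ^ (2 * n + 1) -
        cexp (-(π * I * z)) ^ (2 * n + 1)) : ℂ) * cexp (2 * π * I * (τ : ℂ)) ^ tri n /
        (cexp (π * I * z) - (cexp (π * I * z))⁻¹) =
      ((-1) ^ n * dcoef (cexp (π * I * z)) n : ℂ) * cexp (2 * π * I * (τ : ℂ)) ^ tri n := by
    intro n
    rw [Complex.exp_neg, ← sub_inv_mul_dcoef (Complex.exp_ne_zero _), div_eq_iff hz]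
    ring
  rw [funext hterm] at h
  exact h

lemma mdiff_thetaD (z : ℂ) : MDiff (thetaD z) := by
  apply mdiff_of_differentiableAt (g := fun t => thetaOdd z t / (I * cexp (π * I * t / 4)) /
    (cexp (π * I * z) - (cexp (π * I * z))⁻¹))
  intro t ht
  refine DifferentiableAt.div_const ?_ _
  refine DifferentiableAt.div ?_ (by fun_prop) (mul_ne_zero I_ne_zero (Complex.exp_ne_zero _))
  have := differentiableAt_thetaOdd_line 0 z ht
  simpa using this

/-! ### integrality and congruence of the coefficients -/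

section coeffs

variable (v : ℂ)

/-- the coefficient ring `ℤ[v, v⁻¹]` -/
abbrev coeffRing : Subring ℂ := Subring.closure {v, v⁻¹}

lemma v_mem : v ∈ coeffRing v := Subring.subset_closure (by simp)

lemma vinv_mem : v⁻¹ ∈ coeffRing v := Subring.subset_closure (by simp)

lemma dcoef_mem (n : ℕ) : dcoef v n ∈ coeffRing v := by
  unfold dcoef
  exact mul_mem (pow_mem (vinv_mem v) _)
    (sum_mem fun j _ => pow_mem (pow_mem (v_mem v) _) _)

lemma mem_span_of_eq {x r : ℂ} (hr : r ∈ coeffRing v) (h : x = r * (1 - v)) :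
    x ∈ Submodule.span (coeffRing v) {1 - v} := by
  rw [h]
  have := Submodule.smul_mem (Submodule.span (coeffRing v) {1 - v}) (⟨r, hr⟩ : coeffRing v)
    (Submodule.mem_span_singleton_self (1 - v))
  rwa [Subring.smul_def, smul_eq_mul] at this

lemma one_sub_pow_mem (b : ℕ) : 1 - v ^ b ∈ Submodule.span (coeffRing v) {1 - v} := by
  apply mem_span_of_eq v (r := ∑ i ∈ Finset.range b, v ^ i)
    (sum_mem fun i _ => pow_mem (v_mem v) _)
  rw [mul_comm, mul_neg_geom_sum]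

lemma one_sub_inv_pow_mem (hv : v ≠ 0) (a : ℕ) :
    1 - (v⁻¹) ^ a ∈ Submodule.span (coeffRing v) {1 - v} := by
  apply mem_span_of_eq v (r := -(v⁻¹ * ∑ i ∈ Finset.range a, (v⁻¹) ^ i))
    (neg_mem (mul_mem (vinv_mem v) (sum_mem fun i _ => pow_mem (vinv_mem v) _)))
  have h1 := mul_neg_geom_sum (v⁻¹) a
  have h2 : (1 - v⁻¹) = -(v⁻¹) * (1 - v) := by field_simp; ring
  rw [← h1, h2]
  ring

lemma one_sub_mul_mem (hv : v ≠ 0) (a b : ℕ) :
    1 - (v⁻¹) ^ a * v ^ b ∈ Submodule.span (coeffRing v) {1 - v} := by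
  have h : 1 - (v⁻¹) ^ a * v ^ b = (1 - (v⁻¹) ^ a) + (v⁻¹) ^ a * (1 - v ^ b) := by ring
  rw [h]
  refine Submodule.add_mem _ (one_sub_inv_pow_mem v hv a) ?_
  have := Submodule.smul_mem (Submodule.span (coeffRing v) {1 - v})
    (⟨(v⁻¹) ^ a, pow_mem (vinv_mem v) _⟩ : coeffRing v) (one_sub_pow_mem v b)
  rwa [Subring.smul_def, smul_eq_mul] at this

lemma odd_sub_dcoef_mem (hv : v ≠ 0) (n : ℕ) :
    ((2 * n + 1 : ℕ) : ℂ) - dcoef v n ∈ Submodule.span (coeffRing v) {1 - v} := by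
  have h : ((2 * n + 1 : ℕ) : ℂ) - dcoef v n =
      ∑ j ∈ Finset.range (2 * n + 1), (1 - (v⁻¹) ^ (2 * n) * v ^ (2 * j)) := by
    unfold dcoef
    rw [Finset.sum_sub_distrib, Finset.sum_const, Finset.card_range, nsmul_eq_mul, mul_one,
      Finset.mul_sum]
    congr 1
    refine Finset.sum_congr rfl fun j _ => ?_
    rw [pow_mul v 2 j]
  rw [h]
  exact Submodule.sum_mem _ fun j _ => one_sub_mul_mem v hv _ _

lemma coeffD_mem (n : ℕ) : coeffD v n ∈ coeffRing v := by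
  unfold coeffD
  by_cases h : ∃ k, tri k = n
  · obtain ⟨k, rfl⟩ := h
    rw [tri_injective.extend_apply]
    exact mul_mem (pow_mem (neg_mem (one_mem _)) _) (dcoef_mem v k)
  · rw [extend_apply' _ _ _ h]
    exact zero_mem _

lemma coeffJ_sub_coeffD_mem (hv : v ≠ 0) (n : ℕ) :
    coeffJ n - coeffD v n ∈ Submodule.span (coeffRing v) {1 - v} := by
  unfold coeffJ coeffD
  by_cases h : ∃ k, tri k = n
  · obtain ⟨k, rfl⟩ := h
    rw [tri_injective.extend_apply, tri_injective.extend_apply]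
    have h1 : ((-1) ^ k * (2 * k + 1) : ℂ) - (-1) ^ k * dcoef v k =
        (-1) ^ k * (((2 * k + 1 : ℕ) : ℂ) - dcoef v k) := by push_cast; ring
    rw [h1]
    have := Submodule.smul_mem (Submodule.span (coeffRing v) {1 - v})
      (⟨(-1) ^ k, pow_mem (neg_mem (one_mem _)) _⟩ : coeffRing v) (odd_sub_dcoef_mem v hv k)
    rwa [Subring.smul_def, smul_eq_mul] at this
  · rw [extend_apply' _ _ _ h, extend_apply' _ _ _ h]
    simp

lemma coeffD_zero : coeffD v 0 = 1 := by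
  unfold coeffD
  have : (0 : ℕ) = tri 0 := by simp
  rw [this, tri_injective.extend_apply]
  simp

end coeffs

/-! ### the normalised form and its `q`-expansion -/

/-- `ξ = e^{2πi s/N}` -/
noncomputable def kxi (N : ℕ) (s : ℤ) : ℂ := cexp (π * I * ((2 * s / N : ℝ) : ℂ))

lemma kxi_ne_zero (N : ℕ) (s : ℤ) : kxi N s ≠ 0 := Complex.exp_ne_zero _

lemma kxi_sub_inv_ne_zero {N : ℕ} (hN : N ≠ 0) {s : ℤ} (hs : ¬ (N : ℤ) ∣ 2 * s) :
    kxi N s - (kxi N s)⁻¹ ≠ 0 := by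
  intro h
  have hv := kxi_ne_zero N s
  have h1 : kxi N s * kxi N s = 1 := by
    have : kxi N s = (kxi N s)⁻¹ := sub_eq_zero.mp h
    calc kxi N s * kxi N s = kxi N s * (kxi N s)⁻¹ := by rw [← this]
      _ = 1 := mul_inv_cancel₀ hv
  unfold kxi at h1
  rw [← Complex.exp_add, Complex.exp_eq_one_iff] at h1
  obtain ⟨n, hn⟩ := h1
  have h2 : (2 * π * I : ℂ) ≠ 0 := by simp [Real.pi_ne_zero, I_ne_zero]
  have h3 : (((2 * s / N : ℝ)) : ℂ) = n := by
    apply mul_left_cancel₀ h2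
    linear_combination hn
  have h4 : (2 * s / N : ℝ) = n := by exact_mod_cast h3
  apply hs
  refine ⟨n, ?_⟩
  have hNR : (N : ℝ) ≠ 0 := by exact_mod_cast hN
  have h5 : ((2 * s : ℤ) : ℝ) = ((N * n : ℤ) : ℝ) := by
    push_cast
    field_simp at h4
    linarith
  exact_mod_cast h5

/-- The normalised inverse Klein form `G = ((ξ - ξ⁻¹)/(2πi)) · kleinMF`, with `q`-expansion
`1 + O(q)`. -/
noncomputable def kleinG {N M : ℕ} [NeZero M] (hN : N ≠ 0) (hM : N ^ 2 ∣ M) {s : ℤ}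
    (hs : ¬ (N : ℤ) ∣ 2 * s) : ModularForm (Gamma1 M) 1 :=
  ((kxi N s - (kxi N s)⁻¹) / (2 * π * I)) • kleinMF hN hM hs

lemma kleinG_apply {N M : ℕ} [NeZero M] (hN : N ≠ 0) (hM : N ^ 2 ∣ M) {s : ℤ}
    (hs : ¬ (N : ℤ) ∣ 2 * s) (τ : ℍ) :
    kleinG hN hM hs τ = ((kxi N s - (kxi N s)⁻¹) / (2 * π * I)) *
      (thetaOdd' τ / thetaOdd ((2 * s / N : ℝ) : ℂ) τ) := by
  unfold kleinG
  rw [_root_.smul_apply, kleinMF_apply, smul_eq_mul]
  unfold kleinInv kleinInvC kchar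
  simp

lemma klein_alg_id (c T Θ E : ℂ) (hc : c ≠ 0) (hΘ : Θ ≠ 0) (hE : E ≠ 0) :
    c / (2 * π * I) * (T / Θ) * (Θ / (I * E) / c) = T / (-2 * π * E) := by
  have hpi : (π : ℂ) ≠ 0 := by exact_mod_cast Real.pi_ne_zero
  field_simp
  rw [I_sq]
  ring

lemma kleinG_mul_thetaD {N M : ℕ} [NeZero M] (hN : N ≠ 0) (hM : N ^ 2 ∣ M) {s : ℤ}
    (hs : ¬ (N : ℤ) ∣ 2 * s) :
    (⇑(kleinG hN hM hs)) * thetaD ((2 * s / N : ℝ) : ℂ) = thetaJ := by
  funext τ
  rw [Pi.mul_apply, kleinG_apply]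
  unfold thetaD thetaJ
  have hΘ : thetaOdd ((2 * s / N : ℝ) : ℂ) τ ≠ 0 := by
    have := thetaOdd_ne_zero_of_real (a1 := 0) (a2 := (2 * s / N : ℝ)) (τ := τ) ?_ τ.im_pos
    · simpa using this
    · rintro ⟨m, n, -, h2⟩
      apply not_int_pair hN hs 1
      exact ⟨0, n, by simp, by simpa using h2⟩
  have hv := kxi_sub_inv_ne_zero hN hs
  have hE : cexp (π * I * τ / 4) ≠ 0 := Complex.exp_ne_zero _
  exact klein_alg_id _ _ _ _ hv hΘ hE

/-- **`q`-expansion of the normalised inverse Klein form**: all coefficients of `G - 1` lie in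
`(1 - ξ) · ℤ[ξ, ξ⁻¹]`. -/
theorem kleinG_qExpansion_coeff_sub_one_mem {N M : ℕ} [NeZero M] (hN : N ≠ 0) (hM : N ^ 2 ∣ M)
    {s : ℤ} (hs : ¬ (N : ℤ) ∣ 2 * s) (n : ℕ) :
    (qExpansion 1 (kleinG hN hM hs) - 1).coeff n ∈
      Submodule.span (coeffRing (kxi N s)) {1 - kxi N s} := by
  set z : ℂ := ((2 * s / N : ℝ) : ℂ) with hz
  have hv := kxi_sub_inv_ne_zero hN hs
  have hDsum := hasSum_thetaD z hv
  have hJan : AnalyticAt ℂ (cuspFunction 1 thetaJ) 0 :=
    analyticAt_cusp_of_hasSum hasSum_thetaJ mdiff_thetaJ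
  have hDan : AnalyticAt ℂ (cuspFunction 1 (thetaD z)) 0 :=
    analyticAt_cusp_of_hasSum hDsum (mdiff_thetaD z)
  have hper : (1 : ℝ) ∈ ((Gamma1 M : Subgroup SL(2, ℤ)) : Subgroup (GL (Fin 2) ℝ)).strictPeriods := by
    rw [CongruenceSubgroup.strictPeriods_Gamma1]
    exact AddSubgroup.mem_zmultiples (1 : ℝ)
  have hGan : AnalyticAt ℂ (cuspFunction 1 (kleinG hN hM hs)) 0 :=
    ModularFormClass.analyticAt_cuspFunction_zero (kleinG hN hM hs) one_pos hper
  have hmul : qExpansion 1 (kleinG hN hM hs) * qExpansion 1 (thetaD z) = qExpansion 1 thetaJ := by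
    rw [← qExpansion_mul hGan hDan, kleinG_mul_thetaD hN hM hs]
  have hJc : ∀ m, (qExpansion 1 thetaJ).coeff m = coeffJ m := fun m =>
    qExpansion_coeff_unique_fun hJan hasSum_thetaJ m
  have hDc : ∀ m, (qExpansion 1 (thetaD z)).coeff m = coeffD (kxi N s) m := fun m =>
    qExpansion_coeff_unique_fun hDan hDsum m
  refine coeff_sub_one_mem_of_mul_eq (coeffRing (kxi N s)) (1 - kxi N s) hmul ?_ ?_ ?_ n
  · rw [hDc, coeffD_zero]
  · intro m
    rw [hDc]
    exact coeffD_mem _ m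
  · intro m
    rw [hJc, hDc]
    exact coeffJ_sub_coeffD_mem _ (kxi_ne_zero N s) m

/-- explicit form: `a_n(G) = δ_{n,0} + (1 - ξ) r`, `r ∈ ℤ[ξ, ξ⁻¹]`. -/
theorem kleinG_qExpansion_coeff {N M : ℕ} [NeZero M] (hN : N ≠ 0) (hM : N ^ 2 ∣ M)
    {s : ℤ} (hs : ¬ (N : ℤ) ∣ 2 * s) (n : ℕ) :
    ∃ r ∈ coeffRing (kxi N s), (qExpansion 1 (kleinG hN hM hs)).coeff n =
      (if n = 0 then 1 else 0) + (1 - kxi N s) * r := by
  have h := kleinG_qExpansion_coeff_sub_one_mem hN hM hs n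
  rw [Submodule.mem_span_singleton] at h
  obtain ⟨r, hr⟩ := h
  refine ⟨r, r.2, ?_⟩
  rw [Subring.smul_def, smul_eq_mul, map_sub, PowerSeries.coeff_one] at hr
  linear_combination -hr

end Fermat.Agent.DS.Klein
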